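/-
S45lib / Inst / Charts  (helper9)  --  block (Inst_k) of Project J

**The chart families of the generic fibre for a multi-component thick datum.**

helper3's `S36lib/Fin/ChartFam` (`fixL`, `chartL`, `chartE`, `IsKumFn`, `ChartHyp`) is generic in the
level `N` and the subgroup `H ≤ G_ℚ`; only its last section (`HasCharts`, `kummerFamily`) is tied to
the three-component `Thick.ThickDatum`.  This file is that last section for helper6's
`MThick.MDatum` (any index type `ι`):

* `HasChartsM D P₁ P₂` : the chart family of `D` is `chartL N H P₁ P₂`, `d₁ = deg P₁`, `d₂ = deg P₂`;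
* `kummerFamilyM`      : the `MThick.KummerFamily` of a Kummer function `z` (`𝓔 = chartE … z`);
* the chart fields of `MThick.MCtx`: `finiteDimensional`, `mono`, `inter`, `mul_mem`, `one_mem`,
  `riemann`, and `const00` (`L(0) ∩ fixF = K`).
-/
import Mathlib
import Fermat.Agent.S45lib.MThick.Datum
import Fermat.Agent.S36lib.Fin.ChartFam

set_option autoImplicit false
set_option linter.unusedSectionVars false
set_option linter.unusedVariables false

noncomputable section

namespace Fermat.Agent.S45lib.Inst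

open AlgebraicCurve ModularCurve Module
open Fermat.Agent.S36lib.Desc2 Fermat.Agent.S36lib.Fin
open Fermat.Agent.S37lib.HeckeInst
open Fermat.Agent.S45lib.MThick

local notation "Qb" => AlgebraicClosure ℚ
local notation "GQ" => (AlgebraicClosure ℚ ≃ₐ[ℚ] AlgebraicClosure ℚ)

variable {N : ℕ} [NeZero N] {H : Subgroup GQ} {P₁ P₂ : Divisor Qb (FB N)} {g : ℕ}
variable {R : ValuationSubring (fixK H)}
variable {ι : Type*} {Fk : ι → Type*} [∀ i, Field (Fk i)]
variable [∀ i, Algebra (IsLocalRing.ResidueField R) (Fk i)]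

/-- the multi-component thick datum `D` on `fixF N H` has the chart family `chartL` of
`(P₁, P₂)` -/
structure HasChartsM (D : MDatum R (fixF N H) ι Fk) (P₁ P₂ : Divisor Qb (FB N)) : Prop where
  𝓛_eq : ∀ a b, D.𝓛 a b = chartL N H P₁ P₂ a b
  d₁_eq : (D.d₁ : ℤ) = Divisor.degree P₁
  d₂_eq : (D.d₂ : ℤ) = Divisor.degree P₂

variable {D : MDatum R (fixF N H) ι Fk}

/-- the Kummer family of a Kummer function, for a multi-component thick datum -/
def kummerFamilyM (C : ChartHyp N H P₁ P₂ g) (hD : HasChartsM D P₁ P₂) {n : ℕ} (hn : n ≠ 0)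
    (z : fixF N H) (hz : IsKumFn H n z) : KummerFamily D g n z where
  𝓔 := chartE H P₁ P₂ n z
  finiteDimensional := C.finiteDimensional_chartE n z
  mono := fun ha hb => C.chartE_mono n z ha hb
  inter := C.chartE_inter n z
  mul_mem := fun {a b a' b' f h} hf hh => by
    rw [hD.𝓛_eq] at hf
    exact C.chartE_mul_mem n z hf hh
  mixed_mem := fun {a b a' b' h h₀} hh hh₀ => by
    rw [hD.𝓛_eq]
    exact C.chartE_mixed_mem hn hz hh hh₀
  riemann := fun a b => by
    rw [hD.d₁_eq, hD.d₂_eq]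
    exact C.chartE_riemann hn hz a b

@[simp] theorem kummerFamilyM_𝓔 (C : ChartHyp N H P₁ P₂ g) (hD : HasChartsM D P₁ P₂) {n : ℕ}
    (hn : n ≠ 0) (z : fixF N H) (hz : IsKumFn H n z) :
    (kummerFamilyM C hD hn z hz).𝓔 = chartE H P₁ P₂ n z := rfl

namespace HasChartsM

variable (hD : HasChartsM D P₁ P₂) (C : ChartHyp N H P₁ P₂ g)

include hD C

theorem finiteDimensional (a b : ℕ) : FiniteDimensional (fixK H) (D.𝓛 a b) := by
  rw [hD.𝓛_eq]; exact C.finiteDimensional_chartL a b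

theorem mono {a b a' b' : ℕ} (ha : a ≤ a') (hb : b ≤ b') : D.𝓛 a b ≤ D.𝓛 a' b' := by
  rw [hD.𝓛_eq, hD.𝓛_eq]; exact C.chartL_mono ha hb

theorem inter (a b a' b' : ℕ) : D.𝓛 a b ⊓ D.𝓛 a' b' ≤ D.𝓛 (min a a') (min b b') := by
  rw [hD.𝓛_eq, hD.𝓛_eq, hD.𝓛_eq]; exact C.chartL_inter a b a' b'

theorem mul_mem {a b a' b' : ℕ} {f f' : fixF N H} (hf : f ∈ D.𝓛 a b) (hf' : f' ∈ D.𝓛 a' b') :
    f * f' ∈ D.𝓛 (a + a') (b + b') := by
  rw [hD.𝓛_eq] at hf hf' ⊢; exact C.chartL_mul_mem hf hf'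

theorem one_mem : (1 : fixF N H) ∈ D.𝓛 0 0 := by
  rw [hD.𝓛_eq]; exact C.chartL_one_mem

theorem riemann (a b : ℕ) :
    (a : ℤ) * D.d₁ + b * D.d₂ + 1 - g ≤ (finrank (fixK H) (D.𝓛 a b) : ℤ) := by
  rw [hD.𝓛_eq, hD.d₁_eq, hD.d₂_eq]; exact C.chartL_riemann a b

theorem const00 (f : fixF N H) (hf : f ∈ D.𝓛 0 0) :
    ∃ c : fixK H, f = algebraMap (fixK H) (fixF N H) c := by
  rw [hD.𝓛_eq] at hf; exact C.chartL_const00 f hf

/-- a fixed function whose poles lie on the charts belongs to some chart space -/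
theorem exists_mem_𝓛 (f : fixF N H)
    (hpoles : ∀ v : Place Qb (FB N), v.ord (f : FB N) < 0 → v ∈ P₁.support ∨ v ∈ P₂.support) :
    ∃ a b : ℕ, f ∈ D.𝓛 a b := by
  obtain ⟨a, b, h⟩ := C.exists_mem_chartL f hpoles
  exact ⟨a, b, by rw [hD.𝓛_eq]; exact h⟩

end HasChartsM

end Fermat.Agent.S45lib.Inst
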