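/-
S45lib / Inst / Generic  (helper9)  --  block (Inst_k) of Project J

**The multi-component thick datum with the charts `y ≠ ∞`, `y ≠ c₀`** (generic part; the
multi-component version of helper5's `S36lib/Inst/Datum.chartThick`).

For a family `V i : RamGaussDatum R F (Fk i)` of places of `F / K` above `R`, a function `y : F` and
a constant `c₀ : R` the chart divisors on the component `i` are
  `Q₁ i = (red_i y)_∞`,   `Q₂ i = (red_i y − c̄₀)_0`.
All the "shape" fields of `MThick.MCtx` concerning `Q₁ Q₂` (nonnegativity, disjointness,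
`deg Q₂ i = deg Q₁ i`) hold for free; positivity of the degrees, `deg_Q_le` and `x_not_mem` are
reduced to statements about the reductions `red_i y` (`ChartRed`).
-/
import Mathlib
import Fermat.Agent.S45lib.MThick.Datum
import Fermat.Agent.LSb.Old.Fields
import Fermat.Agent.LSb.Unit.Instance

set_option autoImplicit false
set_option linter.unusedSectionVars false

noncomputable section

namespace Fermat.Agent.S45lib.Inst

open AlgebraicCurve IsLocalRing
open Fermat.Agent.S18lib
open Fermat.Agent.S36lib.Thick (RamGaussDatum)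
open Fermat.Agent.S45lib.MThick
open Fermat.Agent.LSb (HasValueAt)

variable {K : Type*} [Field K] {R : ValuationSubring K}
variable {F : Type*} [Field F] [Algebra K F]
variable {ι : Type*} {Fk : ι → Type*} [∀ i, Field (Fk i)]
variable [∀ i, Algebra (ResidueField R) (Fk i)]

/-- the total reduction of a ramified Gauss datum (`0` outside the valuation ring); this is the
shape of `MThick.MDatum.redF` -/
def gRed {Fk₀ : Type*} [Field Fk₀] [Algebra (ResidueField R) Fk₀] (V : RamGaussDatum R F Fk₀)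
    (y : F) : Fk₀ :=
  letI := Classical.propDecidable
  if h : y ∈ V.O then V.red ⟨y, h⟩ else 0

theorem gRed_of_mem {Fk₀ : Type*} [Field Fk₀] [Algebra (ResidueField R) Fk₀]
    (V : RamGaussDatum R F Fk₀) {y : F} (h : y ∈ V.O) : gRed V y = V.red ⟨y, h⟩ := by
  classical
  rw [gRed, dif_pos h]

theorem gRed_of_not_mem {Fk₀ : Type*} [Field Fk₀] [Algebra (ResidueField R) Fk₀]
    (V : RamGaussDatum R F Fk₀) {y : F} (h : y ∉ V.O) : gRed V y = 0 := by
  classical
  rw [gRed, dif_neg h]

variable [∀ i, HasPrincipalDivisors (ResidueField R) (Fk i)]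

/-- **the multi-component thick datum with the charts `y ≠ ∞`, `y ≠ c₀`** -/
def chartM (π : K) (e : ι → ℕ) (V : ∀ i, RamGaussDatum R F (Fk i)) (i₀ : ι)
    (𝓛 : ℕ → ℕ → Submodule K F) (d : ℕ) (y : F) (c₀ : R) (s : ℕ)
    (x : ∀ i, Fin s → Place (ResidueField R) (Fk i)) (w : ι → ι → ℕ) : MDatum R F ι Fk where
  π := π
  e := e
  V := V
  i₀ := i₀
  𝓛 := 𝓛
  d₁ := d
  d₂ := d
  Q₁ := fun i => polesOf (K := ResidueField R) (gRed (V i) y)
  Q₂ := fun i => zerosOf (K := ResidueField R)
    (gRed (V i) y - algebraMap (ResidueField R) (Fk i) (residue R c₀))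
  s := s
  x := x
  w := w

variable (π : K) (e : ι → ℕ) (V : ∀ i, RamGaussDatum R F (Fk i)) (i₀ : ι)
    (𝓛 : ℕ → ℕ → Submodule K F) (d : ℕ) (y : F) (c₀ : R) (s : ℕ)
    (x : ∀ i, Fin s → Place (ResidueField R) (Fk i)) (w : ι → ι → ℕ)

theorem chartM_redF (i : ι) (f : F) :
    (chartM π e V i₀ 𝓛 d y c₀ s x w).redF i f = gRed (V i) f := rfl

theorem chartM_Q₁ (i : ι) :
    (chartM π e V i₀ 𝓛 d y c₀ s x w).Q₁ i = polesOf (K := ResidueField R) (gRed (V i) y) := rfl

theorem chartM_Q₂ (i : ι) :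
    (chartM π e V i₀ 𝓛 d y c₀ s x w).Q₂ i = zerosOf (K := ResidueField R)
      (gRed (V i) y - algebraMap (ResidueField R) (Fk i) (residue R c₀)) := rfl

theorem chartM_Q₁_nonneg (i : ι) : 0 ≤ (chartM π e V i₀ 𝓛 d y c₀ s x w).Q₁ i :=
  polesOf_nonneg _

theorem chartM_Q₂_nonneg (i : ι) : 0 ≤ (chartM π e V i₀ 𝓛 d y c₀ s x w).Q₂ i :=
  zerosOf_nonneg _

theorem chartM_Q_disjoint (i : ι) :
    Disjoint ((chartM π e V i₀ 𝓛 d y c₀ s x w).Q₁ i).support
      ((chartM π e V i₀ 𝓛 d y c₀ s x w).Q₂ i).support :=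
  LSb.Old.disjoint_support_polesOf_zerosOf_sub (gRed (V i) y) (residue R c₀)

theorem chartM_degree_Q₂ (i : ι) :
    Divisor.degree ((chartM π e V i₀ 𝓛 d y c₀ s x w).Q₂ i) =
      Divisor.degree ((chartM π e V i₀ 𝓛 d y c₀ s x w).Q₁ i) :=
  LSb.Old.degree_zerosOf_sub_const (gRed (V i) y) (residue R c₀)

/-- a multi-point at which `red_i y` is regular and does not take the value `c̄₀` avoids the
boundaries of both charts -/
theorem chartM_x_not_mem (i : ι) (c : Fin s)
    (hreg : gRed (V i) y ∈ (x i c).toValuationSubring)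
    (hval : ¬ (x i c).adicValuation
      (gRed (V i) y - algebraMap (ResidueField R) (Fk i) (residue R c₀)) < 1) :
    (chartM π e V i₀ 𝓛 d y c₀ s x w).x i c ∉ ((chartM π e V i₀ 𝓛 d y c₀ s x w).Q₁ i).support ∧
      (chartM π e V i₀ 𝓛 d y c₀ s x w).x i c ∉
        ((chartM π e V i₀ 𝓛 d y c₀ s x w).Q₂ i).support :=
  ⟨LSb.Unit.not_mem_support_polesOf hreg, LSb.Unit.not_mem_support_zerosOf hval⟩

end Fermat.Agent.S45lib.Inst
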