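/-
S45lib / Inst / Datum  (helper9)  --  block (Inst_k) of Project J

**THE MODULAR MULTI-COMPONENT THICK DATUM of level `M q^k`** (generalisation of helper5's
`S36lib/Inst/Datum.modThick`, which is the case `k = 2`).

Everything is first defined at a GENERAL LEVEL `L` (`jTopL`, `chartP₁L`, `chartP₂L`, `modL`, on
`fixF L I_A`, residue fields `FRes A M`): the top level `M q^k` occurs in several spellings
(`M * q ^ k`, `M * q ^ j * q`, helper1's `lev M q k`), and a statement for a variable level `L` with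
a hypothesis `L = M * q ^ k` can be moved between them by `subst`.  The versions spelled
`M * q ^ k` (`FTopK`, `jTopK`, `chartP₁K`, `chartP₂K`, `modM`) are reducible abbreviations.

`A | q`, `q ∤ M`, `H = A.inertiaSubgroupIn ℚ`, `K = Kfix A`, `R = Wfix A`, `k_W = ResidueField R`,
`F = FTopK M q k A := fixF (M q^k) H`; all residue function fields are `FRes A M` as `k_W`-algebras
(`S36lib.Inst.instAlgebraResW`).

* `jTopK`      : `j` at level `M q^k`, in the fixed field;
* `chartP₁K`, `chartP₂K c₀` : the chart divisors `P₁ = (j)_∞`, `P₂ = (j − c₀)_0` on `FB (M q^k)`;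
  `degree_chartP₁K`, `degree_chartP₂K` (`= ψ(M q^k)`);
* **`modM V e w s x c₀`** : the `MThick.MDatum` with components `V i` (`i : ι`, any index type),
  multiplicities `e`, weights `w`, multi-points `x`, chart constant `c₀`, base component `i₀`;
  `π = q`, `𝓛 = Fin.chartL (M q^k) H P₁ P₂`, `d₁ = d₂ = ψ(M q^k)`;
* `modM_hasCharts`, `modM_chartHyp` : the chart family is helper3's `chartL` (⟹ all the family
  fields of `MCtx` by `Inst/Charts`), and the Kummer families `modM_kummerFamily`.
-/
import Mathlib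
import Fermat.Agent.S45lib.Inst.Charts
import Fermat.Agent.S45lib.Inst.Generic
import Fermat.Agent.S36lib.Inst.Base
import Fermat.Agent.S36lib.Inst.Datum
import Fermat.Agent.S36lib.Norm.ChartInst
import Fermat.Agent.S36lib.Fin.ChartInst

set_option autoImplicit false
set_option linter.unusedSectionVars false
set_option linter.unusedVariables false
set_option linter.style.haveILetI false

noncomputable section

namespace Fermat.Agent.S45lib.Inst

open AlgebraicCurve ModularCurve IsLocalRing
open Fermat.Agent.S18lib Fermat.Agent.ProgramR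
open Fermat.Agent.S36lib.Thick (RamGaussDatum)
open Fermat.Agent.S36lib.Desc Fermat.Agent.S36lib.Desc2
open Fermat.Agent.S36lib.Inst (HI qK instAlgebraResW)
open Fermat.Agent.S37lib.HeckeInst (FB)
open Fermat.Agent.S45lib.MThick

local notation "Qb" => AlgebraicClosure ℚ
local notation "GQ" => (AlgebraicClosure ℚ ≃ₐ[ℚ] AlgebraicClosure ℚ)

/-! ### a general level `L` -/

section Level

variable (L : ℕ) [NeZero L] (A : ValuationSubring Qb)

/-- `j` at level `L`, in the fixed field -/
def jTopL : fixF L (HI A) :=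
  Fermat.Agent.S36lib.Norm.jFixM L (HI A)

theorem coe_jTopL : ((jTopL L A : fixF L (HI A)) : FB L) = Gin0.jF L :=
  rfl

/-- the first chart divisor `P₁ = (j)_∞` on `FB L` -/
def chartP₁L : Divisor Qb (FB L) :=
  haveI := S37lib.HeckeInst.hasPrincipalDivisors_FB L
  polesOf (K := Qb) ((jTopL L A : fixF L (HI A)) : FB L)

/-- the second chart divisor `P₂ = (j - c₀)_0` on `FB L` -/
def chartP₂L (c₀ : Wfix A) : Divisor Qb (FB L) :=
  haveI := S37lib.HeckeInst.hasPrincipalDivisors_FB L
  zerosOf (K := Qb) (((jTopL L A : fixF L (HI A)) : FB L) -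
    algebraMap Qb (FB L) (algebraMap (fixK (HI A)) Qb ((c₀ : Wfix A) : Kfix A)))

/-- `deg P₁ = ψ(L)` -/
theorem degree_chartP₁L :
    Divisor.degree (chartP₁L L A) = (dedekindPsi L : ℤ) := by
  haveI := S37lib.HeckeInst.hasPrincipalDivisors_FB L
  rw [chartP₁L, coe_jTopL]
  exact LSb.Old.degree_polesOf_jF L

/-- `deg P₂ = ψ(L)` -/
theorem degree_chartP₂L (c₀ : Wfix A) :
    Divisor.degree (chartP₂L L A c₀) = (dedekindPsi L : ℤ) := by
  haveI := S37lib.HeckeInst.hasPrincipalDivisors_FB L
  rw [chartP₂L, LSb.Old.degree_zerosOf_sub_const]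
  exact degree_chartP₁L L A

/-- the chart hypotheses for `P₁ = (j)_∞`, `P₂ = (j - c₀)_0` at level `L` -/
theorem chartHypL {g : ℕ} (hF : IsCurveOfGenus Qb (FB L) g) (c₀ : Wfix A) :
    Fermat.Agent.S36lib.Fin.ChartHyp L (HI A) (chartP₁L L A) (chartP₂L L A c₀) g :=
  Fermat.Agent.S36lib.Fin.chartHyp_polesOf_zerosOf hF (jTopL L A)
    ((c₀ : Wfix A) : Kfix A)

end Level

/-! ### the modular datum at a general level `L` (residue fields of level `M`) -/

section ModularL

variable (L M q : ℕ) [NeZero L] [NeZero M] (A : ValuationSubring Qb)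
variable {ι : Type*}
variable [HasPrincipalDivisors (IsLocalRing.ResidueField (Wfix A)) (FRes A M)]

/-- **THE MODULAR MULTI-COMPONENT THICK DATUM** on `fixF L I_A` (any level `L`; in the
application `L = M q^k`, in whatever spelling), with residue function fields `FRes A M`, for
`K`-rational places `V i`, multiplicities `e`, intersection weights `w`, multi-points `x`, chart
constant `c₀`, base component `i₀`; `π = q`. -/
def modL (V : ι → RamGaussDatum (Wfix A) (fixF L (HI A)) (FRes A M)) (i₀ : ι) (e : ι → ℕ)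
    (w : ι → ι → ℕ) (s : ℕ)
    (x : ι → Fin s → AlgebraicCurve.Place (ResidueField (Wfix A)) (FRes A M)) (c₀ : Wfix A) :
    MDatum (Wfix A) (fixF L (HI A)) ι (fun _ => FRes A M) :=
  chartM (qK A q) e V i₀
    (Fermat.Agent.S36lib.Fin.chartL L (HI A) (chartP₁L L A) (chartP₂L L A c₀))
    (dedekindPsi L) (jTopL L A) c₀ s x w

variable (V : ι → RamGaussDatum (Wfix A) (fixF L (HI A)) (FRes A M)) (i₀ : ι) (e : ι → ℕ)
    (w : ι → ι → ℕ) (s : ℕ)
    (x : ι → Fin s → AlgebraicCurve.Place (ResidueField (Wfix A)) (FRes A M)) (c₀ : Wfix A)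

@[simp] theorem modL_π : (modL L M q A V i₀ e w s x c₀).π = qK A q := rfl
@[simp] theorem modL_e : (modL L M q A V i₀ e w s x c₀).e = e := rfl
@[simp] theorem modL_V : (modL L M q A V i₀ e w s x c₀).V = V := rfl
@[simp] theorem modL_i₀ : (modL L M q A V i₀ e w s x c₀).i₀ = i₀ := rfl
@[simp] theorem modL_w : (modL L M q A V i₀ e w s x c₀).w = w := rfl
@[simp] theorem modL_s : (modL L M q A V i₀ e w s x c₀).s = s := rfl
theorem modL_x : (modL L M q A V i₀ e w s x c₀).x = x := rfl
@[simp] theorem modL_d₁ : (modL L M q A V i₀ e w s x c₀).d₁ = dedekindPsi L := rfl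
@[simp] theorem modL_d₂ : (modL L M q A V i₀ e w s x c₀).d₂ = dedekindPsi L := rfl

theorem modL_redF (i : ι) (f : fixF L (HI A)) :
    (modL L M q A V i₀ e w s x c₀).redF i f = gRed (V i) f := rfl

theorem modL_Q₁ (i : ι) :
    (modL L M q A V i₀ e w s x c₀).Q₁ i =
      polesOf (K := ResidueField (Wfix A)) (gRed (V i) (jTopL L A)) := rfl

theorem modL_Q₂ (i : ι) :
    (modL L M q A V i₀ e w s x c₀).Q₂ i = zerosOf (K := ResidueField (Wfix A))
      (gRed (V i) (jTopL L A) -
        algebraMap (ResidueField (Wfix A)) (FRes A M) (residue (Wfix A) c₀)) := rfl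

/-- the chart family of the modular datum is `chartL` of `(P₁, P₂)` -/
theorem modL_hasCharts :
    HasChartsM (modL L M q A V i₀ e w s x c₀) (chartP₁L L A) (chartP₂L L A c₀) :=
  ⟨fun _ _ => rfl, (degree_chartP₁L L A).symm, (degree_chartP₂L L A c₀).symm⟩

/-- the Kummer family of a Kummer function of level `L` -/
def modL_kummerFamily {g : ℕ} (hF : IsCurveOfGenus Qb (FB L) g) {n : ℕ} (hn : n ≠ 0)
    (z : fixF L (HI A)) (hz : Fermat.Agent.S36lib.Fin.IsKumFn (HI A) n z) :
    KummerFamily (modL L M q A V i₀ e w s x c₀) g n z :=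
  kummerFamilyM (chartHypL L A hF c₀) (modL_hasCharts L M q A V i₀ e w s x c₀) hn z hz

end ModularL

/-! ### the level spelled `M * q ^ k` -/

section Level

variable (M q k : ℕ) [NeZero M] [NeZero q]

instance instNeZeroLevelK : NeZero (M * q ^ k) :=
  ⟨Nat.mul_ne_zero (NeZero.ne M) (pow_ne_zero k (NeZero.ne q))⟩

variable (A : ValuationSubring Qb)

/-- the function field of level `M q^k` over `Kfix A` -/
abbrev FTopK : Type := fixF (M * q ^ k) (HI A)

/-- `j` at level `M q^k`, in the fixed field -/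
abbrev jTopK : FTopK M q k A := jTopL (M * q ^ k) A

theorem coe_jTopK : ((jTopK M q k A : FTopK M q k A) : FB (M * q ^ k)) = Gin0.jF (M * q ^ k) :=
  rfl

/-- the first chart divisor `P₁ = (j)_∞` on `FB (M q^k)` -/
abbrev chartP₁K : Divisor Qb (FB (M * q ^ k)) := chartP₁L (M * q ^ k) A

/-- the second chart divisor `P₂ = (j - c₀)_0` on `FB (M q^k)` -/
abbrev chartP₂K (c₀ : Wfix A) : Divisor Qb (FB (M * q ^ k)) := chartP₂L (M * q ^ k) A c₀

/-- `deg P₁ = ψ(M q^k)` -/
theorem degree_chartP₁K :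
    Divisor.degree (chartP₁K M q k A) = (dedekindPsi (M * q ^ k) : ℤ) :=
  degree_chartP₁L (M * q ^ k) A

/-- `deg P₂ = ψ(M q^k)` -/
theorem degree_chartP₂K (c₀ : Wfix A) :
    Divisor.degree (chartP₂K M q k A c₀) = (dedekindPsi (M * q ^ k) : ℤ) :=
  degree_chartP₂L (M * q ^ k) A c₀

/-- the chart hypotheses for `P₁ = (j)_∞`, `P₂ = (j - c₀)_0` at level `M q^k` -/
theorem chartHypK {g : ℕ} (hF : IsCurveOfGenus Qb (FB (M * q ^ k)) g) (c₀ : Wfix A) :
    Fermat.Agent.S36lib.Fin.ChartHyp (M * q ^ k) (HI A) (chartP₁K M q k A)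
      (chartP₂K M q k A c₀) g :=
  chartHypL (M * q ^ k) A hF c₀

end Level

section Modular

variable (M q k : ℕ) [NeZero M] [NeZero q] (A : ValuationSubring Qb)
variable {ι : Type*}
variable [HasPrincipalDivisors (IsLocalRing.ResidueField (Wfix A)) (FRes A M)]

/-- **THE MODULAR MULTI-COMPONENT THICK DATUM** of level `M q^k` (`= modL (M * q ^ k)`), for
`K`-rational places `V i`, multiplicities `e`, intersection weights `w`, multi-points `x`, chart
constant `c₀`. -/
abbrev modM (V : ι → RamGaussDatum (Wfix A) (FTopK M q k A) (FRes A M)) (i₀ : ι) (e : ι → ℕ)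
    (w : ι → ι → ℕ) (s : ℕ)
    (x : ι → Fin s → AlgebraicCurve.Place (ResidueField (Wfix A)) (FRes A M)) (c₀ : Wfix A) :
    MDatum (Wfix A) (FTopK M q k A) ι (fun _ => FRes A M) :=
  modL (M * q ^ k) M q A V i₀ e w s x c₀

variable (V : ι → RamGaussDatum (Wfix A) (FTopK M q k A) (FRes A M)) (i₀ : ι) (e : ι → ℕ)
    (w : ι → ι → ℕ) (s : ℕ)
    (x : ι → Fin s → AlgebraicCurve.Place (ResidueField (Wfix A)) (FRes A M)) (c₀ : Wfix A)

theorem modM_π : (modM M q k A V i₀ e w s x c₀).π = qK A q := rfl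
theorem modM_e : (modM M q k A V i₀ e w s x c₀).e = e := rfl
theorem modM_V : (modM M q k A V i₀ e w s x c₀).V = V := rfl
theorem modM_i₀ : (modM M q k A V i₀ e w s x c₀).i₀ = i₀ := rfl
theorem modM_w : (modM M q k A V i₀ e w s x c₀).w = w := rfl
theorem modM_s : (modM M q k A V i₀ e w s x c₀).s = s := rfl
theorem modM_x : (modM M q k A V i₀ e w s x c₀).x = x := rfl

theorem modM_redF (i : ι) (f : FTopK M q k A) :
    (modM M q k A V i₀ e w s x c₀).redF i f = gRed (V i) f := rfl

theorem modM_Q₁ (i : ι) :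
    (modM M q k A V i₀ e w s x c₀).Q₁ i =
      polesOf (K := ResidueField (Wfix A)) (gRed (V i) (jTopK M q k A)) := rfl

theorem modM_Q₂ (i : ι) :
    (modM M q k A V i₀ e w s x c₀).Q₂ i = zerosOf (K := ResidueField (Wfix A))
      (gRed (V i) (jTopK M q k A) -
        algebraMap (ResidueField (Wfix A)) (FRes A M) (residue (Wfix A) c₀)) := rfl

/-- the chart family of the modular datum is `chartL` of `(P₁, P₂)` -/
theorem modM_hasCharts :
    HasChartsM (modM M q k A V i₀ e w s x c₀) (chartP₁K M q k A) (chartP₂K M q k A c₀) :=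
  modL_hasCharts (M * q ^ k) M q A V i₀ e w s x c₀

/-- the Kummer family of a Kummer function of level `M q^k` -/
def modM_kummerFamily {g : ℕ} (hF : IsCurveOfGenus Qb (FB (M * q ^ k)) g) {n : ℕ} (hn : n ≠ 0)
    (z : FTopK M q k A) (hz : Fermat.Agent.S36lib.Fin.IsKumFn (HI A) n z) :
    KummerFamily (modM M q k A V i₀ e w s x c₀) g n z :=
  modL_kummerFamily (M * q ^ k) M q A V i₀ e w s x c₀ hF hn z hz

end Modular

end Fermat.Agent.S45lib.Inst
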