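/-
S45lib / Inst / KumSys  (helper9)  --  block (Inst_k) of Project J

**The Kummer system of a multi-component thick datum on a fixed field `fixF N H`** (interface
`Chain/Setup.KummerSystemK`), generalising helper3's `S36lib/Fin/ChartFam.kummerSystem`:

* `kummerSystemM C hD hn : KummerSystemK D g n` for any `MDatum` on `fixF N H` with chart family
  `chartL N H P₁ P₂` (`HasChartsM`), under the chart hypotheses `ChartHyp N H P₁ P₂ g`:
  `IsKum = Fin.IsKumFn H n` (`z ≠ 0` and `n ∣ div z`), `𝓔 = Fin.chartE H P₁ P₂ n`;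
* `modL_kummerSystem` : the instance for the modular datum `modL` of level `L` (`= modM` for
  `L = M * q ^ k`).
-/
import Mathlib
import Fermat.Agent.S45lib.Inst.Datum
import Fermat.Agent.S45lib.Chain.Setup

set_option autoImplicit false
set_option linter.unusedSectionVars false
set_option linter.unusedVariables false
set_option linter.style.haveILetI false

noncomputable section

namespace Fermat.Agent.S45lib.Inst

open AlgebraicCurve ModularCurve Module IsLocalRing
open Fermat.Agent.S18lib Fermat.Agent.ProgramR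
open Fermat.Agent.S36lib.Thick (RamGaussDatum)
open Fermat.Agent.S36lib.Desc Fermat.Agent.S36lib.Desc2 Fermat.Agent.S36lib.Fin
open Fermat.Agent.S36lib.Inst (HI qK instAlgebraResW)
open Fermat.Agent.S37lib.HeckeInst (FB)
open Fermat.Agent.S45lib.MThick Fermat.Agent.S45lib.Chain

local notation "Qb" => AlgebraicClosure ℚ
local notation "GQ" => (AlgebraicClosure ℚ ≃ₐ[ℚ] AlgebraicClosure ℚ)

section Generic

variable {N : ℕ} [NeZero N] {H : Subgroup GQ} {P₁ P₂ : Divisor Qb (FB N)} {g : ℕ}
variable {R : ValuationSubring (fixK H)}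
variable {ι : Type*} [Fintype ι] [DecidableEq ι] {Fk : ι → Type*} [∀ i, Field (Fk i)]
variable [∀ i, Algebra (IsLocalRing.ResidueField R) (Fk i)]
variable {D : MDatum R (fixF N H) ι Fk}

/-- **the Kummer system** of a multi-component thick datum on a fixed field -/
def kummerSystemM (C : ChartHyp N H P₁ P₂ g) (hD : HasChartsM D P₁ P₂) {n : ℕ} (hn : n ≠ 0) :
    KummerSystemK D g n where
  IsKum := IsKumFn H n
  𝓔 := chartE H P₁ P₂ n
  fam := fun z hz => kummerFamilyM C hD hn z hz
  fam_𝓔 := fun _ _ => rfl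
  ne_zero := fun _ hz => hz.1
  mul := fun _ _ hz hz' => hz.mul hz'
  inv := fun _ hz => hz.inv
  const := fun _ hc => isKumFn_const n hc
  npow := fun _ hw => isKumFn_pow n hw
  𝓔_mul := fun _ _ hz hz' _ _ _ _ _ _ hh hh' => C.chartE_mul hn hz hz' hh hh'

@[simp] theorem kummerSystemM_isKum (C : ChartHyp N H P₁ P₂ g) (hD : HasChartsM D P₁ P₂) {n : ℕ}
    (hn : n ≠ 0) (z : fixF N H) : (kummerSystemM C hD hn).IsKum z ↔ IsKumFn H n z := Iff.rfl

@[simp] theorem kummerSystemM_𝓔 (C : ChartHyp N H P₁ P₂ g) (hD : HasChartsM D P₁ P₂) {n : ℕ}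
    (hn : n ≠ 0) : (kummerSystemM C hD hn).𝓔 = chartE H P₁ P₂ n := rfl

end Generic

section Modular

variable (L M q : ℕ) [NeZero L] [NeZero M] (A : ValuationSubring Qb)
variable {ι : Type*} [Fintype ι] [DecidableEq ι]
variable [HasPrincipalDivisors (IsLocalRing.ResidueField (Wfix A)) (FRes A M)]
variable (V : ι → RamGaussDatum (Wfix A) (fixF L (HI A)) (FRes A M)) (i₀ : ι) (e : ι → ℕ)
    (w : ι → ι → ℕ) (s : ℕ)
    (x : ι → Fin s → AlgebraicCurve.Place (ResidueField (Wfix A)) (FRes A M)) (c₀ : Wfix A)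

/-- **the Kummer system of the modular datum of level `L`** (for `L = M * q ^ k`: of `modM`) -/
def modL_kummerSystem {g : ℕ} (hF : IsCurveOfGenus Qb (FB L) g) {n : ℕ} (hn : n ≠ 0) :
    KummerSystemK (modL L M q A V i₀ e w s x c₀) g n :=
  kummerSystemM (chartHypL L A hF c₀) (modL_hasCharts L M q A V i₀ e w s x c₀) hn

@[simp] theorem modL_kummerSystem_isKum {g : ℕ} (hF : IsCurveOfGenus Qb (FB L) g)
    {n : ℕ} (hn : n ≠ 0) (z : fixF L (HI A)) :
    (modL_kummerSystem L M q A V i₀ e w s x c₀ hF hn).IsKum z ↔ IsKumFn (HI A) n z := Iff.rfl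

end Modular

end Fermat.Agent.S45lib.Inst
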