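/-
S45lib / Inst / Lattice  (helper9)  --  block (Inst_k) of Project J

**(N1) for the multi-component thick ball**: the field `hD : D.HasLatticeBases` of `MThick.MCtx`.

Generalisation of helper1's `S36lib/Desc2/ThickLattice` (three components) to helper6's
`MThick.MDatum` (any finite family `ι` of components, all `RamGaussDatum`s):

* `mDatum_algebraMap_mem_O`, `mDatum_exists_pow_mul_mem`, `mDatum_exists_smul_mem_O` :
  the ball `O = ⨅ O_i` contains `R` and absorbs `K`-scalars (from `ϖ_i ^ e_i = π · unit`);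
* `mDatum_hasLatticeBases_along` : trace form along `ψ : F' →+* F` (the minimal polynomials over
  `ψ F'` of the elements of the ball have coefficients in a subring `O'` of `F'` with bounded
  lattices);
* `mDatum_hasLatticeBases_of_ramDatum_along` : from a COMPLETE ramified family
  (`Norm.RamDatum`, `∑ e_i f_i = [F : F']`) over a place `P'` of `F'` with (N1) at `P'`.
-/
import Mathlib
import Fermat.Agent.S45lib.MThick.Datum
import Fermat.Agent.S36lib.Desc2.ThickLattice

set_option autoImplicit false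
set_option linter.unusedSectionVars false
set_option linter.unusedVariables false
set_option linter.style.haveILetI false

noncomputable section

namespace Fermat.Agent.S45lib.Inst

open Module Fermat.Agent.S36lib.Norm Fermat.Agent.S18lib Fermat.Agent.S36lib.Desc2
open Fermat.Agent.S45lib.MThick

section Ball

variable {K : Type*} [Field K] {R : ValuationSubring K}
variable {F : Type*} [Field F] [Algebra K F]
variable {ι : Type*} {Fk : ι → Type*} [∀ i, Field (Fk i)]
variable [∀ i, Algebra (IsLocalRing.ResidueField R) (Fk i)]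

/-- `R`-scalars lie in the multi-component ball -/
theorem mDatum_algebraMap_mem_O (D : MDatum R F ι Fk) (r : R) :
    algebraMap K F (r : K) ∈ D.O := by
  rw [MDatum.mem_O]
  exact fun i => ((D.V i).algebraMap_mem_iff _).mpr r.2

/-- every valuation ring of the family absorbs powers of `π` -/
theorem mDatum_exists_pow_mul_mem (D : MDatum R F ι Fk) (hπ0 : D.π ≠ 0) (i : ι)
    (he : 0 < D.e i)
    (hpow : ∃ u : (D.V i).Oˣ, D.ϖ i ^ D.e i = algebraMap K F D.π * ((u : (D.V i).O) : F))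
    (f : F) : ∃ n : ℕ, ∀ m, n ≤ m → algebraMap K F D.π ^ m * f ∈ (D.V i).O := by
  have hπO : algebraMap K F D.π ∈ (D.V i).O := by
    obtain ⟨u, hu⟩ := hpow
    have h1 : ((u : (D.V i).O) : F) * (((u⁻¹ : (D.V i).Oˣ) : (D.V i).O) : F) = 1 :=
      congrArg Subtype.val u.mul_inv
    have hπ' : algebraMap K F D.π = D.ϖ i ^ D.e i * (((u⁻¹ : (D.V i).Oˣ) : (D.V i).O) : F) := by
      rw [hu, mul_assoc, h1, mul_one]
    rw [hπ']
    exact (D.V i).O.mul_mem _ _ ((D.V i).O.pow_mem (D.V i).unif_mem _)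
      ((u⁻¹ : (D.V i).Oˣ) : (D.V i).O).2
  -- it suffices to find one exponent
  suffices h : ∃ n : ℕ, algebraMap K F D.π ^ n * f ∈ (D.V i).O by
    obtain ⟨n, hn⟩ := h
    refine ⟨n, fun m hm => ?_⟩
    obtain ⟨d, rfl⟩ := Nat.exists_eq_add_of_le hm
    rw [pow_add, mul_comm (algebraMap K F D.π ^ n), mul_assoc]
    exact (D.V i).O.mul_mem _ _ ((D.V i).O.pow_mem hπO d) hn
  rcases eq_or_ne f 0 with rfl | hf
  · exact ⟨0, by rw [mul_zero]; exact (D.V i).O.zero_mem⟩
  obtain ⟨j, v, hjv⟩ := (D.V i).exists_zpow_mul_isUnit f hf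
  obtain ⟨u, hu⟩ := hpow
  have h1 : ((u : (D.V i).O) : F) * (((u⁻¹ : (D.V i).Oˣ) : (D.V i).O) : F) = 1 :=
    congrArg Subtype.val u.mul_inv
  have hu0 : ((u : (D.V i).O) : F) ≠ 0 := by
    intro h0
    rw [h0, zero_mul] at h1
    exact zero_ne_one h1
  have hπF : algebraMap K F D.π ≠ 0 := (map_ne_zero _).mpr hπ0
  have hϖ0 : D.ϖ i ≠ 0 := by
    intro h0
    rw [h0, zero_pow he.ne'] at hu
    exact mul_ne_zero hπF hu0 hu.symm
  have hπ' : algebraMap K F D.π = D.ϖ i ^ D.e i * (((u⁻¹ : (D.V i).Oˣ) : (D.V i).O) : F) := by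
    rw [hu, mul_assoc, h1, mul_one]
  rcases le_or_gt 0 j with hj | hj
  · refine ⟨0, ?_⟩
    rw [pow_zero, one_mul, hjv]
    obtain ⟨m, rfl⟩ := Int.eq_ofNat_of_zero_le hj
    rw [zpow_natCast]
    exact (D.V i).O.mul_mem _ _ ((D.V i).O.pow_mem (D.V i).unif_mem m) (v : (D.V i).O).2
  · obtain ⟨m, rfl⟩ : ∃ m : ℕ, j = -(m : ℤ) := ⟨j.natAbs, by omega⟩
    refine ⟨m, ?_⟩
    have hsplit : D.ϖ i ^ D.e i = D.ϖ i ^ (D.e i - 1) * D.ϖ i := by
      rw [← pow_succ]
      congr 1
      omega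
    have key : algebraMap K F D.π ^ m * f =
        (D.ϖ i ^ (D.e i - 1)) ^ m * (((u⁻¹ : (D.V i).Oˣ) : (D.V i).O) : F) ^ m *
          ((v : (D.V i).O) : F) := by
      rw [hjv, hπ', hsplit, mul_pow, mul_pow, zpow_neg, zpow_natCast]
      have hm : D.ϖ i ^ m ≠ 0 := pow_ne_zero _ hϖ0
      field_simp
    rw [key]
    exact (D.V i).O.mul_mem _ _ ((D.V i).O.mul_mem _ _
      ((D.V i).O.pow_mem ((D.V i).O.pow_mem (D.V i).unif_mem _) _)
      ((D.V i).O.pow_mem ((u⁻¹ : (D.V i).Oˣ) : (D.V i).O).2 _)) (v : (D.V i).O).2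

variable [Fintype ι]

/-- **the multi-component ball absorbs `K`-scalars** -/
theorem mDatum_exists_smul_mem_O (D : MDatum R F ι Fk) (hπ : D.π ∈ R) (hπ0 : D.π ≠ 0)
    (he : ∀ i, 0 < D.e i)
    (hpow : ∀ i, ∃ u : (D.V i).Oˣ,
      D.ϖ i ^ D.e i = algebraMap K F D.π * ((u : (D.V i).O) : F)) (f : F) :
    ∃ r : R, r ≠ 0 ∧ algebraMap K F (r : K) * f ∈ D.O := by
  classical
  choose n hn using fun i => mDatum_exists_pow_mul_mem D hπ0 i (he i) (hpow i) f
  set p : R := ⟨D.π, hπ⟩ with hp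
  have hp0 : p ≠ 0 := fun h => hπ0 (congrArg Subtype.val h)
  set m : ℕ := Finset.univ.sup n with hm
  refine ⟨p ^ m, pow_ne_zero _ hp0, ?_⟩
  rw [MDatum.mem_O]
  intro i
  have hc : ((p ^ m : R) : K) = D.π ^ m := by
    push_cast
    rfl
  rw [hc, map_pow]
  exact hn i m (Finset.le_sup (Finset.mem_univ i))

end Ball

/-! ### (N1) along an explicit homomorphism `ψ : F' →+* F` -/

section Along

variable {K : Type*} [Field K] {R : ValuationSubring K}
variable {F : Type*} [Field F] [Algebra K F]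
variable {ι : Type*} [Fintype ι] {Fk : ι → Type*} [∀ i, Field (Fk i)]
variable [∀ i, Algebra (IsLocalRing.ResidueField R) (Fk i)]
variable {F' : Type*} [Field F'] [Algebra K F'] [CharZero F']

/-- **(N1) for the multi-component ball, trace form along `ψ`**: the minimal polynomials over
`ψ F'` of the elements of the ball have coefficients in a subring `O'` of `F'` with bounded
lattices. -/
theorem mDatum_hasLatticeBases_along [IsPrincipalIdealRing R]
    (D : MDatum R F ι Fk) (hπ : D.π ∈ R) (hπ0 : D.π ≠ 0) (he : ∀ i, 0 < D.e i)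
    (hpow : ∀ i, ∃ u : (D.V i).Oˣ,
      D.ϖ i ^ D.e i = algebraMap K F D.π * ((u : (D.V i).O) : F))
    (ψ : F' →+* F) (hψK : ∀ c : K, ψ (algebraMap K F' c) = algebraMap K F c)
    (hfin : FiniteHom ψ) (O' : Subring F')
    (hmin : letI := ψ.toAlgebra; ∀ f ∈ D.O, ∀ m, (minpoly F' f).coeff m ∈ O')
    (hN1 : ∀ W₁ : Submodule K F', FiniteDimensional K W₁ → LatticeBounded R O' W₁) :
    D.HasLatticeBases := by
  letI : Algebra F' F := ψ.toAlgebra
  haveI : IsScalarTower K F' F := IsScalarTower.of_algebraMap_eq (fun c => (hψK c).symm)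
  haveI : FiniteDimensional F' F := hfin
  intro W hW
  have habs : ∀ f : F, ∃ r : R, r ≠ 0 ∧ algebraMap K F (r : K) * f ∈ D.O :=
    mDatum_exists_smul_mem_O D hπ hπ0 he hpow
  have hb : LatticeBounded R D.O W :=
    latticeBounded_of_trace R O' D.O
      (fun f hf => trace_mem_of_minpoly_coeff_mem O' f (hmin f hf))
      (fun f => by
        obtain ⟨r, hr, hrf⟩ := habs f
        exact ⟨(r : K), fun h => hr (Subtype.ext h), hrf⟩) hN1 W
  obtain ⟨b, hbW, hbO, -, hrep⟩ :=
    hasLatticeBasis_of_bounded (mDatum_algebraMap_mem_O D) W hb (fun f _ => habs f)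
  exact ⟨b, hbW, hbO, hrep⟩

variable [DecidableEq ι]
variable {κ' : Type*} [Field κ']
variable {κ : ι → Type*} [∀ i, Field (κ i)] [∀ i, Algebra κ' (κ i)]
variable {P' : Place F' κ'} {π' : F'} {P : ∀ i, Place F (κ i)} {ϖ' : ι → F} {e' : ι → ℕ}

/-- **(N1) for the multi-component ball from a complete ramified family along `ψ`**: the places
`P i` of the `RamDatum` are the components of `D` (`hball`), `∑ e_i f_i = [F : ψ F']`, and (N1)
holds at the base place `P'` (in the bounded form). -/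
theorem mDatum_hasLatticeBases_of_ramDatum_along [IsPrincipalIdealRing R]
    [∀ i, Module.Finite κ' (κ i)]
    (D : MDatum R F ι Fk) (hπ : D.π ∈ R) (hπ0 : D.π ≠ 0) (he : ∀ i, 0 < D.e i)
    (hpow : ∀ i, ∃ u : (D.V i).Oˣ,
      D.ϖ i ^ D.e i = algebraMap K F D.π * ((u : (D.V i).O) : F))
    (ψ : F' →+* F) (hψK : ∀ c : K, ψ (algebraMap K F' c) = algebraMap K F c)
    (hfin : FiniteHom ψ)
    (RD : letI := ψ.toAlgebra; RamDatum P' π' P ϖ' e')
    (hdeg : ∑ i, e' i * Module.finrank κ' (κ i) = finrankHom ψ)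
    (hball : ∀ i, (P i).O = (D.V i).O)
    (hN1 : ∀ W₁ : Submodule K F', FiniteDimensional K W₁ →
      LatticeBounded R P'.O.toSubring W₁) : D.HasLatticeBases := by
  refine mDatum_hasLatticeBases_along D hπ hπ0 he hpow ψ hψK hfin P'.O.toSubring ?_ hN1
  letI : Algebra F' F := ψ.toAlgebra
  haveI : FiniteDimensional F' F := hfin
  intro f hf m
  refine RD.minpoly_coeff_mem hdeg (fun i => ?_) m
  rw [hball i]
  exact MDatum.mem_O.mp hf i

end Along

end Fermat.Agent.S45lib.Inst
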