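/-
S45lib / Inst / TowerReq  (helper9)  --  block (Inst_k) of Project J

**What (Inst_k) needs from the tower (KM) at level `M q^k`, and what follows from it.**

`TowerReq hqM hA L V e ψ ιs` : for a family `V i` (`i : ι`) of ramified Gauss data of
`fixF L I_A` (`L` = the top level `M q^k`, in ANY spelling -- see the header of `Inst/Datum`) over
`(Kfix A, Wfix A)`, all with residue field `FRes A M`:
the places `V i` are ALL the places of `F` over the Gauss place `gaussMK` of the level `M` along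
a homomorphism `ψ : fixF M I_A →+* fixF L I_A` (`y ↦ y(z)`), with ramification indices `e i` and
residue embeddings `ιs i : FRes A M →+* FRes A M`, in the instance-free language of
`S36lib/Norm/Along` (`RamOverAlong`, `∑ e_i f_i = deg ψ`).

From it, for the modular datum `D = modL L M q A V i₀ e w s x c₀` (ANY `i₀ w s x c₀`; for
`L = M * q ^ k` this is `modM M q k A V i₀ e w s x c₀`):

* `TowerReq.red_j`          : `red_i j = ιs i j̄`;
* `TowerReq.unif_pow`       : `ϖ_i ^ e_i = q · unit`  (field `unif_pow` of `MCtx`);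
* `TowerReq.hasLatticeBases`: **(N1)**  (field `hD`);
* `TowerReq.chart`          : **(CHART)** on every component (field `chart`);
* `TowerReq.isUnif`, `TowerReq.isArch`, `TowerReq.algebraMap_q_mem`.
-/
import Mathlib
import Fermat.Agent.S45lib.Inst.Datum
import Fermat.Agent.S45lib.Inst.Lattice
import Fermat.Agent.S36lib.Norm.ChartConst
import Fermat.Agent.S36lib.Norm.ChartBase
import Fermat.Agent.S36lib.Norm.ChartInst
import Fermat.Agent.S36lib.Desc2.ThickLatticeInst
import Fermat.Agent.S36lib.Mid.OverM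
import Fermat.Agent.S36lib.Val.RedJ

set_option autoImplicit false
set_option linter.unusedSectionVars false
set_option linter.unusedVariables false
set_option linter.style.haveILetI false

noncomputable section

namespace Fermat.Agent.S45lib.Inst

open AlgebraicCurve ModularCurve IsLocalRing
open Fermat.Agent.S18lib Fermat.Agent.ProgramR
open Fermat.Agent.S36lib.Thick (RamGaussDatum)
open Fermat.Agent.S36lib.Desc Fermat.Agent.S36lib.Desc2
open Fermat.Agent.S36lib.Inst (HI qK instAlgebraResW constIso)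
open Fermat.Agent.S36lib.Norm (RamOverAlong FiniteHom finrankHom IsUnif IsArch ofGauss ofRamGauss
  jFixM)
open Fermat.Agent.S36lib.Mid (qFix)
open Fermat.Agent.S37lib.HeckeInst (FB)
open Fermat.Agent.S45lib.MThick

local notation "Qb" => AlgebraicClosure ℚ
local notation "GQ" => (AlgebraicClosure ℚ ≃ₐ[ℚ] AlgebraicClosure ℚ)

/-! ### a unit from two elements of the same valuation -/

section UnitOfVal

variable {F : Type*} [Field F]

theorem exists_unit_of_valuation_eq (O : ValuationSubring F) {x y : F} (hy : y ≠ 0)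
    (h : O.valuation x = O.valuation y) : ∃ u : Oˣ, x = y * ((u : O) : F) := by
  have hx : x ≠ 0 := by
    intro hx
    rw [hx, map_zero] at h
    exact hy ((map_eq_zero _).1 h.symm)
  have h1 : O.valuation (x * y⁻¹) = 1 := by
    rw [map_mul, map_inv₀, h]
    exact mul_inv_cancel₀ ((map_ne_zero _).2 hy)
  have h2 : O.valuation (y * x⁻¹) = 1 := by
    rw [map_mul, map_inv₀, h]
    exact mul_inv_cancel₀ ((map_ne_zero _).2 hy)
  have m1 : x * y⁻¹ ∈ O := (O.valuation_le_one_iff _).1 h1.le
  have m2 : y * x⁻¹ ∈ O := (O.valuation_le_one_iff _).1 h2.le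
  refine ⟨⟨⟨x * y⁻¹, m1⟩, ⟨y * x⁻¹, m2⟩, ?_, ?_⟩, ?_⟩
  · apply Subtype.ext
    show x * y⁻¹ * (y * x⁻¹) = 1
    field_simp
  · apply Subtype.ext
    show y * x⁻¹ * (x * y⁻¹) = 1
    field_simp
  · show x = y * (x * y⁻¹)
    field_simp

end UnitOfVal

section Req

variable {M q : ℕ} [NeZero M] [NeZero q] [hq : Fact q.Prime] {A : ValuationSubring Qb}
variable [HasPrincipalDivisors (ResidueField (Wfix A)) (FRes A M)]
variable {ι : Type*} [Fintype ι] [DecidableEq ι]

/-- **The requirements of (Inst_k) on the tower at level `M q^k`**: the places `V i` are all the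
places of `fixF (M q^k) I` over the Gauss place of level `M` along `ψ`. -/
structure TowerReq (hqM : ¬ q ∣ M) (hA : A.LiesOverPrime q) (L : ℕ) [NeZero L]
    (V : ι → RamGaussDatum (Wfix A) (fixF L (HI A)) (FRes A M)) (e : ι → ℕ)
    (ψ : fixF M (HI A) →+* fixF L (HI A)) (ιs : ι → FRes A M →+* FRes A M) : Prop where
  /-- `ψ` is `K`-linear -/
  ψ_const : ∀ c : Kfix A,
    ψ (algebraMap (Kfix A) (fixF M (HI A)) c) = algebraMap (Kfix A) (fixF L (HI A)) c
  /-- `ψ j = j` -/
  ψ_j : ψ (jFixM M (HI A)) = jTopL L A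
  /-- the place `V i` lies over the Gauss place of level `M`, with ramification index `e i` and
  residue embedding `ιs i` -/
  lies : ∀ i, RamOverAlong ψ (ιs i) (ofGauss (gaussMK M A hqM hA)) (qFix A q M)
    (ofRamGauss (V i)) (V i).unif (e i)
  ne : ∀ i j, i ≠ j → (V i).O ≠ (V j).O
  fin : FiniteHom ψ
  fin_ιs : ∀ i, FiniteHom (ιs i)
  /-- completeness: `∑ e_i f_i = deg ψ` -/
  deg_sum : ∑ i, e i * finrankHom (ιs i) = finrankHom ψ
  /-- the residue embeddings fix the constants -/
  ιs_const : ∀ i (c : ResidueField (Wfix A)),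
    ιs i (algebraMap (ResidueField (Wfix A)) (FRes A M) c) =
      algebraMap (ResidueField (Wfix A)) (FRes A M) c
  e_pos : ∀ i, 0 < e i

namespace TowerReq

variable {hqM : ¬ q ∣ M} {hA : A.LiesOverPrime q} {L : ℕ} [NeZero L]
  {V : ι → RamGaussDatum (Wfix A) (fixF L (HI A)) (FRes A M)} {e : ι → ℕ}
  {ψ : fixF M (HI A) →+* fixF L (HI A)} {ιs : ι → FRes A M →+* FRes A M}

/-- `q` is a uniformizer of the Gauss place of level `M` -/
theorem base (hqM : ¬ q ∣ M) (hA : A.LiesOverPrime q) :
    IsUnif (ofGauss (gaussMK M A hqM hA)).O (qFix A q M) :=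
  Fermat.Agent.S36lib.Norm.isUnif_ofGauss (gaussMK M A hqM hA)
    (Fermat.Agent.S36lib.Norm.isUnif_Wfix hq.out hA)

/-- `j` of level `M` is a unit at the Gauss place, with reduction `j̄` -/
theorem jFixM_mem (hqM : ¬ q ∣ M) (hA : A.LiesOverPrime q) :
    jFixM M (HI A) ∈ (ofGauss (gaussMK M A hqM hA)).O :=
  ((compat_gaussMK M A hqM hA).mem _).2 (LSb.Frame.frameM (M := M) (q := q) hqM hA).y_mem

theorem jFixM_inv_mem (hqM : ¬ q ∣ M) (hA : A.LiesOverPrime q) :
    (jFixM M (HI A))⁻¹ ∈ (ofGauss (gaussMK M A hqM hA)).O := by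
  show (jFixM M (HI A))⁻¹ ∈ (gaussMK M A hqM hA).O
  rw [(compat_gaussMK M A hqM hA).mem, map_inv₀]
  exact (LSb.Frame.frameM (M := M) (q := q) hqM hA).inv.y_mem

theorem redF_jFixM (hqM : ¬ q ∣ M) (hA : A.LiesOverPrime q) :
    (ofGauss (gaussMK M A hqM hA)).redF (jFixM M (HI A)) = Gink.jK A M := by
  show (gaussMK M A hqM hA).redF (jFixM M (HI A)) = _
  rw [(compat_gaussMK M A hqM hA).red]
  exact (LSb.Frame.redF_jF hqM hA).trans (Fermat.Agent.S36lib.Val.jRes_eq_jK M A)

variable (T : TowerReq hqM hA L V e ψ ιs)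

include T

/-- **the reduction table of `j`**: `red_i j = ιs i j̄` -/
theorem red_j (i : ι) : gRed (V i) (jTopL L A) = ιs i (Gink.jK A M) := by
  rw [← T.ψ_j, ← redF_jFixM hqM hA]
  exact (T.lies i).red _ (jFixM_mem hqM hA)

theorem isUnif (i : ι) : IsUnif (V i).O (V i).unif := (T.lies i).unif

theorem isArch (i : ι) : IsArch (V i).O := (T.lies i).arch

theorem valuation_q (i : ι) :
    (V i).O.valuation (algebraMap (Kfix A) (fixF L (HI A)) (qK A q)) =
      (V i).O.valuation (V i).unif ^ e i := by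
  have h := (T.lies i).ram
  rw [qFix, T.ψ_const] at h
  exact h

/-- **`ϖ_i ^ e_i = q · unit`**: the field `unif_pow` of `MCtx` -/
theorem unif_pow (i : ι) : ∃ u : (V i).Oˣ,
    (V i).unif ^ e i = algebraMap (Kfix A) (fixF L (HI A)) (qK A q) * ((u : (V i).O) : _) := by
  refine exists_unit_of_valuation_eq (V i).O ?_ ?_
  · exact (map_ne_zero _).2 (Fermat.Agent.S36lib.Inst.qK_ne_zero hq.out)
  · rw [map_pow, T.valuation_q i]

/-- `q` lies in every valuation ring of the family -/
theorem algebraMap_q_mem (i : ι) :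
    algebraMap (Kfix A) (fixF L (HI A)) (qK A q) ∈ (V i).O :=
  ((V i).algebraMap_mem_iff _).2 (Fermat.Agent.S36lib.Inst.qK_mem A q)

variable (i₀ : ι) (w : ι → ι → ℕ) (s : ℕ)
  (x : ι → Fin s → AlgebraicCurve.Place (ResidueField (Wfix A)) (FRes A M)) (c₀ : Wfix A)

/-- **(N1) for the modular multi-component ball**: the field `hD` of `MCtx`. -/
theorem hasLatticeBases : (modL L M q A V i₀ e w s x c₀).HasLatticeBases := by
  haveI := isPrincipalIdealRing_Wfix hq.out hA
  refine mDatum_hasLatticeBases_along (modL L M q A V i₀ e w s x c₀)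
    (Fermat.Agent.S36lib.Inst.qK_mem A q) (Fermat.Agent.S36lib.Inst.qK_ne_zero hq.out) T.e_pos
    (fun i => T.unif_pow i) ψ T.ψ_const T.fin (ofGauss (gaussMK M A hqM hA)).O.toSubring ?_
    (latticeBounded_gaussMK M A hqM hA)
  intro f hf m
  exact Fermat.Agent.S36lib.Mid.minpoly_coeff_mem_const ψ ιs (fun i => ofRamGauss (V i))
    (fun i => (V i).unif) e (base hqM hA) T.lies T.ne T.fin T.fin_ιs T.deg_sum
    (fun i => MDatum.mem_O.mp hf i) m

/-- **(CHART) on every component of the modular datum**: the field `chart` of `MCtx`. -/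
theorem chart (i : ι) (a b : ℕ) (f : fixF L (HI A))
    (hf : f ∈ (modL L M q A V i₀ e w s x c₀).𝓛 a b)
    (hfO : f ∈ (modL L M q A V i₀ e w s x c₀).O) :
    (modL L M q A V i₀ e w s x c₀).redF i f ∈
      riemannRochSpace ((modL L M q A V i₀ e w s x c₀).chartDiv i a b) := by
  haveI hpd : HasPrincipalDivisors Qb (FB L) :=
    S37lib.HeckeInst.hasPrincipalDivisors_FB L
  set I := constIso (A := A) hq.out hA M with hI
  set y₁ : fixF M (HI A) := jFixM M (HI A) with hy₁def
  have hy₁ : y₁ ∈ (ofGauss (gaussMK M A hqM hA)).O := jFixM_mem hqM hA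
  have hy₁i : y₁⁻¹ ∈ (ofGauss (gaussMK M A hqM hA)).O := jFixM_inv_mem hqM hA
  have hredy : (ofGauss (gaussMK M A hqM hA)).redF y₁ = Gink.jK A M := redF_jFixM hqM hA
  -- the embedding into the geometric function field
  let emb : fixF L (HI A) →ₐ[fixK (HI A)] FB L :=
    IsScalarTower.toAlgHom (fixK (HI A)) (fixF L (HI A)) (FB L)
  have hemb : emb (ψ y₁) = Gin0.jF L := by
    rw [T.ψ_j]
    rfl
  have hytr : Transcendental Qb (emb (ψ y₁)) := by
    rw [hemb]
    exact Gin0.transcendental_jF L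
  haveI hfd : FiniteDimensional (IntermediateField.adjoin Qb {emb (ψ y₁)}) (FB L) := by
    rw [hemb]
    exact Gin0.finiteDimensional_jF L
  -- the constant
  have hc₁ : algebraMap (fixK (HI A)) (fixF M (HI A)) ((c₀ : Wfix A) : Kfix A) ∈
      (ofGauss (gaussMK M A hqM hA)).O := (gaussMK M A hqM hA).algebraMap_mem c₀
  have hcred₁ : (ofGauss (gaussMK M A hqM hA)).redF (algebraMap (fixK (HI A)) (fixF M (HI A))
      ((c₀ : Wfix A) : Kfix A)) =
      algebraMap (ResidueField (Wfix A)) (FRes A M) (residue (Wfix A) c₀) :=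
    (gaussMK M A hqM hA).redF_algebraMap c₀
  have hnc₁ : (ofGauss (gaussMK M A hqM hA)).redF y₁ -
      algebraMap (ResidueField (Wfix A)) (FRes A M) (residue (Wfix A) c₀) ≠ 0 := by
    rw [hredy, ← Fermat.Agent.S36lib.Val.jRes_eq_jK M A]
    intro h0
    apply LSb.Frame.transcendental_jRes (M := M) (q := q) hqM hA
    rw [sub_eq_zero.1 h0, I.comp]
    exact isAlgebraic_algebraMap _
  have hf' : emb f ∈ riemannRochSpace
      ((a : ℤ) • polesOf (K := Qb) (emb (ψ y₁)) +
        (b : ℤ) • zerosOf (K := Qb)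
          (emb (ψ y₁) - algebraMap Qb (FB L)
              (algebraMap (fixK (HI A)) Qb ((c₀ : Wfix A) : Kfix A)))) := by
    rw [T.ψ_j]
    exact hf
  have key := Fermat.Agent.S36lib.Norm.redF_mem_chart_const' (K := fixK (HI A)) (L := Qb)
    (k := ResidueField (Wfix A)) ψ ιs (fun i => ofRamGauss (V i)) (fun i => (V i).unif) e
    (base hqM hA) T.lies T.ne T.fin T.fin_ιs T.deg_sum T.ψ_const T.ιs_const emb hy₁ hy₁i hytr
    (fun g hg hint => Fermat.Agent.S36lib.Norm.redIntegral_gaussM hqM hA I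
      (compat_gaussMK M A hqM hA) rfl hg hint)
    (fun g hg hint => Fermat.Agent.S36lib.Norm.redIntegral_gaussM_inv hqM hA I
      (compat_gaussMK M A hqM hA) rfl hg hint)
    ((c₀ : Wfix A) : Kfix A) (residue (Wfix A) c₀) hc₁ hcred₁ hnc₁ a b
    (fun i => MDatum.mem_O.mp hfO i) hf' i
  have hr : gRed (V i) (jTopL L A) =
      ιs i ((ofGauss (gaussMK M A hqM hA)).redF y₁) := by
    rw [hredy]
    exact T.red_j i
  show gRed (V i) f ∈ riemannRochSpace (LSb.Core.lin2
    (polesOf (K := ResidueField (Wfix A)) (gRed (V i) (jTopL L A)))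
    (zerosOf (K := ResidueField (Wfix A)) (gRed (V i) (jTopL L A) -
      algebraMap (ResidueField (Wfix A)) (FRes A M) (residue (Wfix A) c₀))) a b)
  rw [hr]
  exact key

end TowerReq

end Req

end Fermat.Agent.S45lib.Inst
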