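/-
S45lib / Inst / Assemble  (helper9)  --  block (Inst_k) of Project J

**THE MODULAR `MCtx` AT THE LEVEL `M q^k` FROM THE TOWER RECORD, (GLUE) AND (MULT).**

For a level `L` with `hL : L = M * q ^ k` (any spelling: `M * q ^ k`, `M * q ^ j * q`,
`Tower.lev M q k`), helper5's datum
  `ModK.modLK L … V x = modL L M q A V 0 (eK q k) (wK q k) nS x c0WK`
satisfies `MThick.MCtx` as soon as

* `T : TowerReq hqM hA L V (eK q k) ψ ιs` with `ιs i j̄ = j̄ ^ q ^ (2 i - k)` (the tower (KM)):
  gives `RedJK`, `unif_pow`, `hD` = (N1), `chart` = (CHART) (`Inst/TowerReq`);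
* the multipoints `x` are supersingular places (`ModK.IsSSFam`);
* (GLUE) and (MULT) hold (the supersingular block (SS)).

All the other fields are helper5's `ModK/Datum`, `ModK/Ctx` (`ModK.mctx_modLK_of`).
-/
import Mathlib
import Fermat.Agent.S45lib.Inst.TowerReq
import Fermat.Agent.S45lib.ModK.Ctx

set_option autoImplicit false
set_option linter.unusedSectionVars false
set_option linter.unusedVariables false
set_option linter.style.haveILetI false

noncomputable section

namespace Fermat.Agent.S45lib.Inst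

open AlgebraicCurve ModularCurve IsLocalRing
open Fermat.Agent.S18lib Fermat.Agent.ProgramR
open Fermat.Agent.S36lib Fermat.Agent.S36lib.Inst
open Fermat.Agent.S36lib.Thick (RamGaussDatum)
open Fermat.Agent.S36lib.Desc Fermat.Agent.S36lib.Desc2
open Fermat.Agent.S37lib.HeckeInst (FB)
open Fermat.Agent.S45lib.MThick Fermat.Agent.S45lib.CountK Fermat.Agent.S45lib.ModK
open Fermat.Agent.LSb (HasValueAt)

local notation "Qb" => AlgebraicClosure ℚ

variable {M q k : ℕ} [NeZero M] [NeZero q] [hq : Fact q.Prime] {A : ValuationSubring Qb}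

local notation "kA" => IsLocalRing.ResidueField A
local notation "kW" => IsLocalRing.ResidueField (Wfix A)

variable [HasPrincipalDivisors (IsLocalRing.ResidueField A) (FRes A M)]
variable [HasPrincipalDivisors (IsLocalRing.ResidueField (Wfix A)) (FRes A M)]
variable [HasPrincipalDivisors Qb (FBar M)]

variable {hqM : ¬ q ∣ M} {hA : A.LiesOverPrime q}

variable {ι' : Type*}

/-- **THE MODULAR `MCtx` AT A LEVEL `L = M q^k` FROM THE TOWER RECORD, (GLUE) AND (MULT).** -/
theorem mctx_modLK_of_towerReq {L : ℕ} [NeZero L] (hL : L = M * q ^ k)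
    {V : Fin (k + 1) → RamGaussDatum (Wfix A) (fixF L (HI A)) (FRes A M)}
    {x : Fin (k + 1) → Fin (nS M q A hqM hA) →
      AlgebraicCurve.Place (IsLocalRing.ResidueField (Wfix A)) (FRes A M)}
    {ψ : fixF M (HI A) →+* fixF L (HI A)} {ιs : Fin (k + 1) → FRes A M →+* FRes A M}
    (T : TowerReq hqM hA L V (fun i => eK q k i) ψ ιs)
    (hιj : ∀ i : Fin (k + 1), ιs i (Gink.jK A M) = Gink.jK A M ^ q ^ (2 * (i : ℕ) - k))
    (haux : Fin.IsAuxLevel M q) (hk : 1 ≤ k)
    (hx : IsSSFam M q k A hqM hA x) {g gM : ℕ}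
    (hF : IsCurveOfGenus Qb (FBar L) g) (hFk : IsCurveOfGenus kA (FRes A M) gM)
    (hglue : ∀ (a b : ℕ) (f : fixF L (HI A)), f ∈ (modLK L M q k A hqM hA V x).𝓛 a b →
      f ∈ (modLK L M q k A hqM hA V x).O → ∀ c, ∃ α : kW,
        ∀ i, HasValueAt ((modLK L M q k A hqM hA V x).x i c)
          ((modLK L M q k A hqM hA V x).redF i f) α)
    (hmult : ∀ (i : Fin (k + 1)) (a b : ℕ) (f : fixF L (HI A)),
      f ∈ (modLK L M q k A hqM hA V x).𝓛 a b → ∀ β : Fin (k + 1) → ℕ, β i = 0 →
      (∀ j, (modLK L M q k A hqM hA V x).Ge j (β j) f) → ∀ c,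
        (modLK L M q k A hqM hA V x).redF i f = 0 ∨
          (∑ j, (β j : ℤ) * ((modLK L M q k A hqM hA V x).w i j : ℤ)) ≤
            ((modLK L M q k A hqM hA V x).x i c).ord
              ((modLK L M q k A hqM hA V x).redF i f)) :
    MCtx (modLK L M q k A hqM hA V x) g (fun _ => gM) :=
  ModK.mctx_modLK_of hL haux hk (fun i => (T.red_j i).trans (hιj i)) hx hF hFk
    (fun i => T.unif_pow i)
    (T.hasLatticeBases 0 (fun i j => wK q k i j) (nS M q A hqM hA) x (c0WK M q k A hqM hA))
    (T.chart 0 (fun i j => wK q k i j) (nS M q A hqM hA) x (c0WK M q k A hqM hA)) hglue hmult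

end Fermat.Agent.S45lib.Inst
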