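/-
S45lib / Inst / GlueMod  (helper9)  --  block (Inst_k) of Project J

**(GLUE) AND (MULT) FOR THE MODULAR DATUM OF LEVEL `M q^k` FROM THE RESTRICTION ROWS.**

`D = modLK L M q k A hqM hA V (xK k)` (level `L = M * q ^ k` in any spelling, multipoints helper8's
`SS.xK`).  Inputs from the tower:

* `T  : TowerReq hqM hA L V (eK q k) (pos 0) ιs` with `ιs i j̄ = j̄ ^ q ^ (2 i - k)` (`Inst/TowerReq`);
* `Rq : RowsReq hqM hA L k V pos step` : helper4's rows `SS.RowsK` of the positions
  `pos i : fixF M I →+* fixF L I` (`y ↦ y(q^i z)`) and of the steps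
  `step i : fixF (M q) I →+* fixF L I` (`g ↦ g(q^i z)`), the fact that `pos 0` and the `step i`
  preserve regularity off the cusps, and `step i q = q`.

Outputs (generic fibre part = cusp ring `Desc2.regAwayFix L I`, level `M q` units `X0K`, `Y0K`,
`H₂`, `m = 12`, the points = helper8's `SS/Points`):

* `unitDataK_mod`     : helper4's `SS.UnitDataK` for the modular units of level `M q`;
* `glueAtFam_modLK`   : (GLUE) on the cusp ring `regAwayFix L I` at every multipoint
                        (this is the field `low_glue` of `Chain.ChainCtxK` for the low level);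
* `glueR_modLK`       : the field `glue` of `MCtx`;
* `unitTable_modLK`, `mult_modLK` : the unit table (M2) and the field `mult` of `MCtx`;
* **`mctx_modLK`**    : `MCtx (modLK L …) g (fun _ => gM)` from `T`, `Rq` alone.
-/
import Mathlib
import Fermat.Agent.S45lib.Inst.Assemble
import Fermat.Agent.S45lib.SS.GlueB
import Fermat.Agent.S45lib.SS.Table
import Fermat.Agent.S45lib.SS.Points
import Fermat.Agent.S45lib.MThick.Mult
import Fermat.Agent.S36lib.Fin.UnitsK
import Fermat.Agent.S36lib.Fin.CuspInst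
import Fermat.Agent.S36lib.Fin.GlueField
import Fermat.Agent.S36lib.Desc2.LiftM

set_option autoImplicit false
set_option linter.unusedSectionVars false
set_option linter.unusedVariables false
set_option linter.style.haveILetI false

noncomputable section

namespace Fermat.Agent.S45lib.Inst

open AlgebraicCurve ModularCurve IsLocalRing
open Fermat.Agent.S18lib Fermat.Agent.ProgramR
open Fermat.Agent.S36lib Fermat.Agent.S36lib.Inst
open Fermat.Agent.S36lib.Thick (RamGaussDatum)
open Fermat.Agent.S36lib.Desc Fermat.Agent.S36lib.Desc2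
open Fermat.Agent.S36lib.Norm (ofGauss ofRamGauss jFixM)
open Fermat.Agent.S36lib.Fin (X0K Y0K)
open Fermat.Agent.S37lib.HeckeInst (FB hasPrincipalDivisors_FB)
open Fermat.Agent.S45lib.MThick Fermat.Agent.S45lib.CountK Fermat.Agent.S45lib.ModK
open Fermat.Agent.LSb (HasValueAt)
open Fermat.Agent.LSb.Unit (regAway VqR H₂)

local notation "Qb" => AlgebraicClosure ℚ

variable {M q k : ℕ} [NeZero M] [NeZero q] [hq : Fact q.Prime] {A : ValuationSubring Qb}

local notation "kA" => IsLocalRing.ResidueField A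
local notation "kW" => IsLocalRing.ResidueField (Wfix A)

/-! ### the modular units of level `M q` -/

/-- **helper4's unit data for the modular units `X0K`, `Y0K` of level `M q`** (`m = 12`,
`H = H₂` the supersingular polynomial, `π₀ = q`). -/
theorem unitDataK_mod (hqM : ¬ q ∣ M) (hA : A.LiesOverPrime q) :
    SS.UnitDataK (ofGauss (gaussOneK M q A hqM hA)) (ofGauss (gaussTwoK M q A hqM hA))
      ((q : ℕ) : fixF (M * q) (HI A)) (X0K M q (HI A)) (Y0K M q (HI A))
      (H₂ (nodeD1 M q A hqM hA)) 12 where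
  π₀_ne := Fin.natCast_ne_zero_fixF M q (HI A)
  mul := Fin.X0K_mul_Y0K M q (HI A)
  red₁ := Fin.gaussOneK_redF_Y0K_div M q A hqM hA
  red₂ := Fin.gaussTwoK_redF_Y0K M q A hqM hA
  H_ne := Fin.H₂_gaussOne_ne_zero M q A hqM hA

variable [HasPrincipalDivisors (IsLocalRing.ResidueField A) (FRes A M)]
variable [HasPrincipalDivisors (IsLocalRing.ResidueField (Wfix A)) (FRes A M)]
variable [HasPrincipalDivisors Qb (FBar M)]

omit [HasPrincipalDivisors (IsLocalRing.ResidueField A) (FRes A M)]
  [HasPrincipalDivisors (IsLocalRing.ResidueField (Wfix A)) (FRes A M)]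
  [HasPrincipalDivisors Qb (FBar M)] [NeZero q] hq in
theorem jK_sub_const_ne_zeroK (x : kW) :
    Gink.jK A M - algebraMap kW (FRes A M) x ≠ 0 := by
  intro h0
  have htr := Gink.transcendental_jK A M
  rw [algebraMap_resW, sub_eq_zero] at h0
  apply htr
  rw [h0]
  exact isAlgebraic_algebraMap _

/-! ### the requirements on the rows -/

/-- **The requirements of (SS)/(Inst_k) on the rows of the tower at the level `L = M q^k`.** -/
structure RowsReq (hqM : ¬ q ∣ M) (hA : A.LiesOverPrime q) (L : ℕ) [NeZero L] (k : ℕ)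
    (V : Fin (k + 1) → RamGaussDatum (Wfix A) (fixF L (HI A)) (FRes A M))
    (pos : ℕ → fixF M (HI A) →+* fixF L (HI A))
    (step : ℕ → fixF (M * q) (HI A) →+* fixF L (HI A)) : Prop where
  /-- helper4's rows (`SS/RowsK`); the places are indexed by the number `a` of `F`-steps there -/
  rows : SS.RowsK k (VqR (M := M) hA) pos step (ofGauss (gaussMK M A hqM hA))
    (ofGauss (gaussOneK M q A hqM hA)) (ofGauss (gaussTwoK M q A hqM hA))
    (fun a => J.ramPlace (V (Fin.rev a)))
  /-- `y ↦ y(z)` preserves regularity off the cusps -/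
  pos_reg : ∀ y ∈ regAwayFix M (HI A), pos 0 y ∈ regAwayFix L (HI A)
  /-- `g ↦ g(q^i z)` preserves regularity off the cusps -/
  step_reg : ∀ i, i < k → ∀ y ∈ regAwayFix (M * q) (HI A), step i y ∈ regAwayFix L (HI A)
  /-- the steps are `K`-linear at `q` -/
  step_q : ∀ i, i < k → step i ((q : ℕ) : fixF (M * q) (HI A)) =
    algebraMap (Kfix A) (fixF L (HI A)) (qK A q)

variable {hqM : ¬ q ∣ M} {hA : A.LiesOverPrime q}

/-- helper8's multipoints are supersingular places -/
theorem isSSFam_xK :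
    IsSSFam M q k A hqM hA (fun i c => SS.xK M q A hqM hA k (i : ℕ) c) :=
  ⟨fun i => SS.xK_injective M q A hqM hA k i, fun i c => SS.xK_eq_triplePt M q A hqM hA k i c⟩

/-- the modular datum of level `L = M q^k` with helper8's multipoints -/
abbrev modLX (L : ℕ) [NeZero L] (M q k : ℕ) [NeZero M] [NeZero q] [Fact q.Prime]
    (A : ValuationSubring Qb) (hqM : ¬ q ∣ M) (hA : A.LiesOverPrime q)
    [HasPrincipalDivisors (IsLocalRing.ResidueField (Wfix A)) (FRes A M)]
    (V : Fin (k + 1) → RamGaussDatum (Wfix A) (fixF L (HI A)) (FRes A M)) :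
    MDatum (Wfix A) (fixF L (HI A)) (Fin (k + 1)) (fun _ => FRes A M) :=
  modLK L M q k A hqM hA V (fun i c => SS.xK M q A hqM hA k (i : ℕ) c)

section Glue

variable {L : ℕ} [NeZero L]
  {V : Fin (k + 1) → RamGaussDatum (Wfix A) (fixF L (HI A)) (FRes A M)}
  {pos : ℕ → fixF M (HI A) →+* fixF L (HI A)}
  {step : ℕ → fixF (M * q) (HI A) →+* fixF L (HI A)}
  {ιs : Fin (k + 1) → FRes A M →+* FRes A M}

/-- the multipoints avoid the boundaries of the charts -/
theorem modLX_x_not_mem (hL : L = M * q ^ k)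
    (h : ∀ i : Fin (k + 1), gRed (V i) (jTopL L A) = Gink.jK A M ^ q ^ (2 * (i : ℕ) - k))
    (i : Fin (k + 1)) (c : Fin (nS M q A hqM hA)) :
    (modLX L M q k A hqM hA V).x i c ∉ ((modLX L M q k A hqM hA V).Q₁ i).support ∧
      (modLX L M q k A hqM hA V).x i c ∉ ((modLX L M q k A hqM hA V).Q₂ i).support := by
  exact ModK.modLK_x_not_mem (isSSFam_xK (k := k) (hqM := hqM) (hA := hA)) h i c

/-- elements of the cusp ring lie in some `𝓛 a 0` -/
theorem exists_mem_𝓛_of_mem_regAwayFix (f : fixF L (HI A)) (hf : f ∈ regAwayFix L (HI A)) :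
    ∃ a : ℕ, f ∈ (modLX L M q k A hqM hA V).𝓛 a 0 :=
  Fin.exists_mem_chartL_of_regAway (Gin0.jF L) _ f hf

/-- the elements of `𝓛 a 0` are regular off the cusps -/
theorem mem_regAwayFix_of_mem_𝓛 (f : fixF L (HI A)) (a : ℕ)
    (hf : f ∈ (modLX L M q k A hqM hA V).𝓛 a 0) : f ∈ regAwayFix L (HI A) :=
  Fin.mem_regAway_of_mem_chartL (Gin0.jF L) _ f a hf

variable (T : TowerReq hqM hA L V (fun i => eK q k i) (pos 0) ιs)
  (hιj : ∀ i : Fin (k + 1), ιs i (Gink.jK A M) = Gink.jK A M ^ q ^ (2 * (i : ℕ) - k))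

include T hιj

theorem modLX_redJ (i : Fin (k + 1)) :
    gRed (V i) (jTopL L A) = Gink.jK A M ^ q ^ (2 * (i : ℕ) - k) :=
  (T.red_j i).trans (hιj i)

/-- (CHART) in the shape used below -/
theorem modLX_chart (i : Fin (k + 1)) (a b : ℕ) (f : fixF L (HI A))
    (hf : f ∈ (modLX L M q k A hqM hA V).𝓛 a b) (hfO : f ∈ (modLX L M q k A hqM hA V).O) :
    (modLX L M q k A hqM hA V).redF i f ∈
      riemannRochSpace ((modLX L M q k A hqM hA V).chartDiv i a b) :=
  T.chart 0 _ _ _ _ i a b f hf hfO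

/-- the reductions of the cusp ring are regular at the multipoints -/
theorem modLX_hreg (hL : L = M * q ^ k) (c : Fin (nS M q A hqM hA)) (i : Fin (k + 1))
    (f : fixF L (HI A)) (hf : f ∈ regAwayFix L (HI A))
    (hfO : f ∈ (modLX L M q k A hqM hA V).O) :
    (modLX L M q k A hqM hA V).redF i f ∈
      ((modLX L M q k A hqM hA V).x i c).toValuationSubring := by
  obtain ⟨a, ha⟩ := exists_mem_𝓛_of_mem_regAwayFix (k := k) (hqM := hqM) (hA := hA) (V := V) f hf
  have hx := modLX_x_not_mem hL (modLX_redJ T hιj) i c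
  exact Fin.mem_valuationSubring_of_mem_rr_lin2 hx.1 hx.2 (modLX_chart T hιj i a 0 f ha hfO)

/-- (CHART) on the root component `0 = (k, 0)`: the reductions of the cusp ring are regular off the
cusps of level `M` -/
theorem modLX_hchart_root (f : fixF L (HI A)) (hf : f ∈ regAwayFix L (HI A))
    (hfO : f ∈ (modLX L M q k A hqM hA V).O) :
    (modLX L M q k A hqM hA V).redF 0 f ∈ regAway kW (Gink.jK A M) := by
  obtain ⟨a, ha⟩ := exists_mem_𝓛_of_mem_regAwayFix (k := k) (hqM := hqM) (hA := hA) (V := V) f hf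
  have h1 := modLX_chart T hιj 0 a 0 f ha hfO
  have hj : gRed (V 0) (jTopL L A) = Gink.jK A M := by
    have := modLX_redJ T hιj 0
    rwa [Fin.val_zero, Nat.mul_zero, Nat.zero_sub, pow_zero, pow_one] at this
  have h2 : (modLX L M q k A hqM hA V).redF 0 f ∈ riemannRochSpace
      ((a : ℤ) • polesOf (K := kW) (Gink.jK A M)) := by
    have e : (modLX L M q k A hqM hA V).chartDiv 0 a 0 =
        (a : ℤ) • polesOf (K := kW) (Gink.jK A M) := by
      show LSb.Core.lin2 (polesOf (K := kW) (gRed (V 0) (jTopL L A))) _ (a : ℤ) ((0 : ℕ) : ℤ) = _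
      rw [hj]
      ext v
      rw [LSb.Core.lin2_apply, Finsupp.smul_apply, smul_eq_mul, Nat.cast_zero, zero_mul, add_zero]
    rw [← e]
    exact h1
  exact Fermat.Agent.S36lib.Norm.mem_regAway_of_mem_rr a h2

/-! ### (GLUE) -/

/-- **(GLUE) on the cusp ring `regAwayFix L I` at the multipoint `c`** (this is also the field
`low_glue` of `Chain.ChainCtxK` when `L` is the low level). -/
theorem glueAtFam_modLX (hL : L = M * q ^ k) (hk : 0 < k) (Rq : RowsReq hqM hA L k V pos step)
    (c : Fin (nS M q A hqM hA)) :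
    SS.GlueAtFam (fun i => G.placeOf (modLX L M q k A hqM hA V) i)
      (fun i => (modLX L M q k A hqM hA V).x i c)
      (regAwayFix L (HI A) : Set (fixF L (HI A))) := by
  refine SS.glueAtFam_of_rowsK_rev (modLX L M q k A hqM hA V) Rq.rows (unitDataK_mod hqM hA) hk c
    ?_ (regAwayFix L (HI A)) (regAwayFix M (HI A)) (regAway kW (Gink.jK A M)) Rq.pos_reg
    (fun f hf hO => modLX_hchart_root T hιj f hf hO)
    (fun i f hf hO => modLX_hreg T hιj hL c i f hf hO)
    (exists_regAwayFix_lift_of_constIso M A hqM hA (constIso hq.out hA M)) (T.isArch 0) ?_ ?_ ?_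
  · exact SS.deg_xK M q A hqM hA k _ c
  · rw [← map_inv₀]
    exact Rq.step_reg (k - 1) (by omega) _ (Fin.coe_Y0K_inv_mem_regAway M q (HI A))
  · intro i z α h
    refine SS.hasValueAt_xK M q A hqM hA k i c z α ?_
    have e : ((0 : Fin (k + 1)) : ℕ) = 0 := rfl
    rw [← e]
    exact h
  · intro i n
    exact SS.adicValuation_VqR_pow_H₂_xK_lt_one M q A hqM hA k i n c

/-- the field `low_glue` of `Chain.ChainCtxK` (for the level `L` as the LOW level) -/
theorem low_glue_modLX (hL : L = M * q ^ k) (hk : 0 < k) (Rq : RowsReq hqM hA L k V pos step)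
    (f : fixF L (HI A)) (hf : f ∈ regAwayFix L (HI A))
    (hO : f ∈ (modLX L M q k A hqM hA V).O) (c : Fin (modLX L M q k A hqM hA V).s) :
    ∃ γ : kW, ∀ i, HasValueAt ((modLX L M q k A hqM hA V).x i c)
      ((modLX L M q k A hqM hA V).redF i f) γ :=
  glueAtFam_modLX T hιj hL hk Rq c f hf (fun i => MDatum.mem_O.1 hO i)

/-- the second chart function `w = j - c₀` of level `L` -/
def wTopL (L : ℕ) [NeZero L] (M q k : ℕ) [NeZero M] [NeZero q] [Fact q.Prime]
    (A : ValuationSubring Qb) (hqM : ¬ q ∣ M) (hA : A.LiesOverPrime q) : fixF L (HI A) :=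
  jTopL L A - algebraMap (Kfix A) (fixF L (HI A)) ((c0WK M q k A hqM hA : Wfix A) : Kfix A)

omit T hιj in
theorem coe_wTopL : ((wTopL L M q k A hqM hA : fixF L (HI A)) : FB L) =
    ((jTopL L A : fixF L (HI A)) : FB L) - algebraMap Qb (FB L)
      (algebraMap (fixK (HI A)) Qb ((c0WK M q k A hqM hA : Wfix A) : Kfix A)) := rfl

/-- `j` is integral on every component -/
theorem jTopL_mem (i : Fin (k + 1)) : jTopL L A ∈ (V i).O := by
  rw [← T.ψ_j]
  exact (T.lies i).mem _ (TowerReq.jFixM_mem hqM hA)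

/-- the reductions of `w = j - c₀` -/
theorem modLX_red_wTopL :
    wTopL L M q k A hqM hA ∈ (modLX L M q k A hqM hA V).O ∧
      ∀ i : Fin (k + 1), (modLX L M q k A hqM hA V).redF i (wTopL L M q k A hqM hA) =
        Gink.jK A M ^ q ^ (2 * (i : ℕ) - k) -
          algebraMap kW (FRes A M) (residue (Wfix A) (c0WK M q k A hqM hA)) := by
  have hc : ((c0WK M q k A hqM hA : Wfix A) : Kfix A) ∈ Wfix A := (c0WK M q k A hqM hA).2
  have hci : ∀ i : Fin (k + 1),
      algebraMap (Kfix A) (fixF L (HI A)) ((c0WK M q k A hqM hA : Wfix A) : Kfix A) ∈ (V i).O :=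
    fun i => ((V i).algebraMap_mem_iff _).2 hc
  refine ⟨MDatum.mem_O.2 fun i => (V i).O.sub_mem (jTopL_mem T hιj i) (hci i), fun i => ?_⟩
  show (ofRamGauss (V i)).redF (wTopL L M q k A hqM hA) = _
  rw [wTopL, (ofRamGauss (V i)).redF_sub (jTopL_mem T hιj i) (hci i)]
  congr 1
  · exact modLX_redJ T hιj i
  · rw [(ofRamGauss (V i)).redF_of_mem (hci i)]
    exact (V i).red_algebraMap (c0WK M q k A hqM hA) (hci i)

/-- **the field `glue` of `MCtx`** for the modular datum of level `L = M q^k`. -/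
theorem glueR_modLX (hL : L = M * q ^ k) (hk : 0 < k) (Rq : RowsReq hqM hA L k V pos step) :
    G.GlueR (modLX L M q k A hqM hA V) := by
  have hP := hasPrincipalDivisors_FB L
  obtain ⟨hwO, hwred⟩ := modLX_red_wTopL T hιj
  have hred0 : (modLX L M q k A hqM hA V).redF 0 (wTopL L M q k A hqM hA) =
      Gink.jK A M - algebraMap kW (FRes A M) (residue (Wfix A) (c0WK M q k A hqM hA)) := by
    have := hwred 0
    rwa [Fin.val_zero, Nat.mul_zero, Nat.zero_sub, pow_zero, pow_one] at this
  have hwne : (modLX L M q k A hqM hA V).redF 0 (wTopL L M q k A hqM hA) ≠ 0 := by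
    rw [hred0]; exact jK_sub_const_ne_zeroK _
  have hw0 : ((wTopL L M q k A hqM hA : fixF L (HI A)) : FB L) ≠ 0 := by
    intro h0
    apply hwne
    have : wTopL L M q k A hqM hA = 0 := Subtype.ext h0
    rw [this]
    exact (ofRamGauss (V 0)).redF_zero
  have hwreg : ((wTopL L M q k A hqM hA : fixF L (HI A)) : FB L) ∈
      regAway Qb ((jTopL L A : fixF L (HI A)) : FB L) := by
    rw [coe_wTopL]
    exact (regAway Qb _).sub_mem (LSb.Unit.self_mem_regAway _)
      (LSb.Unit.algebraMap_mem_regAway _ _)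
  refine SS.glueR_of_glueAtFam (modLX L M q k A hqM hA V) (regAwayFix L (HI A))
    (fun c => glueAtFam_modLX T hιj hL hk Rq c) (w := wTopL L M q k A hqM hA) hwreg hwO 0 hwne
    ?_ ?_
  · -- `w̄⁻¹` is regular at the multipoints
    intro (c : Fin (nS M q A hqM hA))
    rw [hred0]
    have h1 := not_hasValueAt_triplePtK (k := k) (hqM := hqM) (hA := hA) c (t := 0)
      (Nat.zero_le k)
    rw [pow_zero, pow_one] at h1
    have hx : (modLX L M q k A hqM hA V).x 0 c = triplePt M q A hqM hA c := by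
      show SS.xK M q A hqM hA k ((0 : Fin (k + 1)) : ℕ) c = _
      rw [Fin.val_zero, SS.xK_zero]
    rw [hx, ← Tame.adicValuation_le_one_iff_mem, map_inv₀]
    rw [not_lt] at h1
    exact inv_le_one_of_one_le₀ h1
  · -- `f w^b` is regular off the cusps
    intro a b f hf
    have hf' : (f : FB L) ∈ riemannRochSpace
        ((a : ℤ) • polesOf (K := Qb) ((jTopL L A : fixF L (HI A)) : FB L) +
          (b : ℤ) • zerosOf (K := Qb) ((wTopL L M q k A hqM hA : fixF L (HI A)) : FB L)) := hf
    exact LSb.Unit.mul_pow_mem_regAway hw0 hwreg a b hf'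

/-! ### (MULT) -/

omit T hιj in
/-- the chain of units is regular off the cusps, with its inverses -/
theorem Xc_mem_regAwayFix (Rq : RowsReq hqM hA L k V pos step) (j : ℕ) :
    SS.Xc k step (X0K M q (HI A)) (algebraMap (Kfix A) (fixF L (HI A)) (qK A q) ^ 12) j ∈
        regAwayFix L (HI A) ∧
      (SS.Xc k step (X0K M q (HI A)) (algebraMap (Kfix A) (fixF L (HI A)) (qK A q) ^ 12) j)⁻¹ ∈
        regAwayFix L (HI A) := by
  have hconst : ∀ c : Kfix A, algebraMap (Kfix A) (fixF L (HI A)) c ∈ regAwayFix L (HI A) :=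
    fun c => LSb.Unit.algebraMap_mem_regAway _ _
  cases j with
  | zero =>
    rw [SS.Xc_zero, inv_one]
    exact ⟨(regAwayFix L (HI A)).one_mem, (regAwayFix L (HI A)).one_mem⟩
  | succ i =>
    by_cases hi : i < k
    · rw [SS.Xc_succ_of_lt step _ _ hi]
      refine ⟨Rq.step_reg i hi _ (Fin.coe_X0K_mem_regAway M q (HI A)), ?_⟩
      rw [← map_inv₀]
      exact Rq.step_reg i hi _ (Fin.coe_X0K_inv_mem_regAway M q (HI A))
    · rw [SS.Xc_succ_of_le step _ _ (by omega)]
      refine ⟨?_, ?_⟩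
      · rw [← map_pow]
        exact hconst _
      · rw [← map_pow, ← map_inv₀]
        exact hconst _

omit T hιj in
/-- the units `E_i` lie in a common chart space `𝓛 a₀ 0` -/
theorem exists_EcB_mem_𝓛 {g : ℕ} (hF : IsCurveOfGenus Qb (FBar L) g)
    (Rq : RowsReq hqM hA L k V pos step) :
    ∃ a₀ b₀ : ℕ, ∀ i : Fin (k + 1),
      SS.EcB k step (X0K M q (HI A)) (algebraMap (Kfix A) (fixF L (HI A)) (qK A q) ^ 12) i ∈
        (modLX L M q k A hqM hA V).𝓛 a₀ b₀ := by
  classical
  have hC := chartHypL L A hF (c0WK M q k A hqM hA)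
  have hCh := modL_hasCharts L M q A V 0 (fun i => eK q k i) (fun i j => wK q k i j)
    (nS M q A hqM hA) (fun i c => SS.xK M q A hqM hA k (i : ℕ) c) (c0WK M q k A hqM hA)
  have hmem : ∀ i : Fin (k + 1), ∃ a : ℕ,
      SS.EcB k step (X0K M q (HI A)) (algebraMap (Kfix A) (fixF L (HI A)) (qK A q) ^ 12) i ∈
        (modLX L M q k A hqM hA V).𝓛 a 0 := by
    intro i
    refine exists_mem_𝓛_of_mem_regAwayFix (k := k) (hqM := hqM) (hA := hA) (V := V) _ ?_
    exact (regAwayFix L (HI A)).mul_mem (Xc_mem_regAwayFix Rq _).1 (Xc_mem_regAwayFix Rq _).2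
  choose a ha using hmem
  refine ⟨Finset.univ.sup a, 0, fun i => ?_⟩
  exact hCh.mono hC (Finset.le_sup (Finset.mem_univ i)) le_rfl (ha i)

/-- **the unit table (M2) of the modular datum** -/
theorem unitTable_modLX (haux : Fin.IsAuxLevel M q) {g : ℕ} (hF : IsCurveOfGenus Qb (FBar L) g)
    (Rq : RowsReq hqM hA L k V pos step) :
    UnitTable (modLX L M q k A hqM hA V) 12
      (SS.EcB k step (X0K M q (HI A)) (algebraMap (Kfix A) (fixF L (HI A)) (qK A q) ^ 12)) :=
  SS.unitTable_of_rowsK (modLX L M q k A hqM hA V) hq.out (fun _ => rfl) (fun _ _ => rfl) Rq.rows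
    (unitDataK_mod hqM hA) Rq.step_q (qK_ne_zero hq.out) (qK_mem A q) (by norm_num)
    (fun i => T.unif_pow i) (exists_EcB_mem_𝓛 hF Rq)
    (Count.VqR_H₂ hA (isGaussOne_nodeD1 M q A hqM hA))
    (fun i c => SS.ord_H₂_xK M q A hqM hA haux k i c)

/-- the part of `MCtx` used by (MULT) -/
theorem multBase_modLX (hL : L = M * q ^ k) {g : ℕ} (hF : IsCurveOfGenus Qb (FBar L) g) :
    MultBase (modLX L M q k A hqM hA V) := by
  have hC := chartHypL L A hF (c0WK M q k A hqM hA)
  have hCh := modL_hasCharts L M q A V 0 (fun i => eK q k i) (fun i j => wK q k i j)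
    (nS M q A hqM hA) (fun i c => SS.xK M q A hqM hA k (i : ℕ) c) (c0WK M q k A hqM hA)
  exact
    { π_ne_zero := qK_ne_zero hq.out
      e_pos := T.e_pos
      unif_pow := fun i => T.unif_pow i
      mono := fun ha hb => hCh.mono hC ha hb
      mul_mem := fun hf hf' => hCh.mul_mem hC hf hf'
      one_mem := hCh.one_mem hC
      x_not_mem := fun i c => modLX_x_not_mem hL (modLX_redJ T hιj) i c
      chart := fun i a b f hf hO => modLX_chart T hιj i a b f hf hO }

/-- **the field `mult` of `MCtx`** for the modular datum of level `L = M q^k`. -/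
theorem mult_modLX (hL : L = M * q ^ k) (haux : Fin.IsAuxLevel M q) {g : ℕ}
    (hF : IsCurveOfGenus Qb (FBar L) g) (Rq : RowsReq hqM hA L k V pos step) :
    MultStatement (modLX L M q k A hqM hA V) :=
  (multBase_modLX T hιj hL hF).mult_of_unitTable (unitTable_modLX T hιj haux hF Rq)

/-! ### the context -/

/-- **THE MODULAR `MCtx` AT A LEVEL `L = M q^k` FROM THE TOWER RECORDS** `T : TowerReq`,
`Rq : RowsReq` (auxiliary level `M`, `k ≥ 1`). -/
theorem mctx_modLX (hL : L = M * q ^ k) (haux : Fin.IsAuxLevel M q) (hk : 1 ≤ k) {g gM : ℕ}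
    (hF : IsCurveOfGenus Qb (FBar L) g) (hFk : IsCurveOfGenus kA (FRes A M) gM)
    (Rq : RowsReq hqM hA L k V pos step) :
    MCtx (modLX L M q k A hqM hA V) g (fun _ => gM) :=
  mctx_modLK_of_towerReq hL T hιj haux hk isSSFam_xK hF hFk
    (glueR_modLX T hιj hL hk Rq) (mult_modLX T hιj hL haux hF Rq)

end Glue

end Fermat.Agent.S45lib.Inst
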