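/-
S45lib / Inst / TowerPos  (helper9)  --  block (Inst_k) of Project J

**THE MODULAR CONTEXT AT EVERY LEVEL `lev M q (k+1)` FROM THE TOWER RECORD `T : TowerCore`** (helper6's
`MThick/TowerCore`, the ONLY tower input), with the positions `posT` and the steps `stepT` of
`Tower/PosStep`:

* `posT_zero_jFixM : posT k 0 j = jTopL (lev M q k) A`, `stepT_qK` (the field `step_q`);
* `rowsReq_posT`  : `RowsReq hqM hA (lev M q (k+1)) (k+1) V (posT (k+1)) (stepT k)` from helper4's
  rows `SS.RowsK` alone;  `rowsReq_lev T k` : the same from `T` (`T.rowsK k`);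
* `modT T k`      : the modular datum `modLX (lev M q k) M q k A hqM hA (T.V k)` of level `M q^k`;
* **`mctx_lev T haux k hF hFk`** : `MCtx (modT T (k+1)) g (fun _ => gM)`;
* **`low_glue_lev T k`** : the field `low_glue` of `Chain.ChainCtxK` at the level `lev M q (k+1)`;
* `const00_lev`, `kummerSystem_lev`, `kummerSystem_lev_isKum` : the two remaining level-wise bricks
  of `Chain.chainCtxK_of_bricks`.
-/
import Mathlib
import Fermat.Agent.S45lib.Inst.GlueMod
import Fermat.Agent.S45lib.Inst.KumSys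
import Fermat.Agent.S45lib.Tower.PosStep
import Fermat.Agent.S45lib.MThick.TowerOut

set_option autoImplicit false
set_option linter.unusedSectionVars false
set_option linter.unusedVariables false
set_option linter.style.haveILetI false

noncomputable section

namespace Fermat.Agent.S45lib.Inst

open AlgebraicCurve ModularCurve IsLocalRing
open Fermat.Agent.S18lib Fermat.Agent.ProgramR
open Fermat.Agent.S36lib Fermat.Agent.S36lib.Inst
open Fermat.Agent.S36lib.Thick (RamGaussDatum)
open Fermat.Agent.S36lib.Desc Fermat.Agent.S36lib.Desc2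
open Fermat.Agent.S36lib.Norm (ofGauss ofRamGauss jFixM)
open Fermat.Agent.S37lib.HeckeInst (FB hasPrincipalDivisors_FB)
open Fermat.Agent.S45lib.MThick Fermat.Agent.S45lib.CountK Fermat.Agent.S45lib.ModK
open Fermat.Agent.S45lib.Tower
open Fermat.Agent.S45lib.Chain (KummerSystemK)
open Fermat.Agent.LSb (HasValueAt)
open Fermat.Agent.LSb.Unit (regAway VqR H₂)

local notation "Qb" => AlgebraicClosure ℚ

variable {M q : ℕ} [NeZero M] [NeZero q] [hq : Fact q.Prime] {A : ValuationSubring Qb}

local notation "kA" => IsLocalRing.ResidueField A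
local notation "kW" => IsLocalRing.ResidueField (Wfix A)

variable [HasPrincipalDivisors (IsLocalRing.ResidueField A) (FRes A M)]
variable [HasPrincipalDivisors (IsLocalRing.ResidueField (Wfix A)) (FRes A M)]
variable [HasPrincipalDivisors Qb (FBar M)]

variable {hqM : ¬ q ∣ M} {hA : A.LiesOverPrime q}

/-! ### the function-field side of the records -/

/-- **`posT k 0 j = j`** (the field `ψ_j` of `TowerReq`) -/
theorem posT_zero_jFixM (k : ℕ) :
    posT M q (HI A) k 0 (jFixM M (HI A)) = jTopL (lev M q k) A :=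
  Subtype.ext ((coe_posT_zero_jFixM M q (HI A) k).trans (coe_jTopL (lev M q k) A).symm)

/-- the steps are `K`-linear at `q` (the field `step_q` of `RowsReq`) -/
theorem stepT_qK (k i : ℕ) :
    stepT M q (HI A) k i ((q : ℕ) : fixF (M * q) (HI A)) =
      algebraMap (Kfix A) (fixF (lev M q (k + 1)) (HI A)) (qK A q) :=
  stepT_natCast M q (HI A) k i q

/-- **the record `RowsReq` at the level `lev M q (k+1)` for `posT (k+1)`, `stepT k`, from helper4's
rows alone** -/
theorem rowsReq_posT {k : ℕ}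
    {V : Fin (k + 1 + 1) → RamGaussDatum (Wfix A) (fixF (lev M q (k + 1)) (HI A)) (FRes A M)}
    (rows : SS.RowsK (k + 1) (VqR (M := M) hA) (posT M q (HI A) (k + 1)) (stepT M q (HI A) k)
      (ofGauss (gaussMK M A hqM hA)) (ofGauss (gaussOneK M q A hqM hA))
      (ofGauss (gaussTwoK M q A hqM hA)) (fun a => J.ramPlace (V (Fin.rev a)))) :
    RowsReq hqM hA (lev M q (k + 1)) (k + 1) V (posT M q (HI A) (k + 1)) (stepT M q (HI A) k) where
  rows := rows
  pos_reg := fun y hy => posT_mem_regAwayFix M q (HI A) (k + 1) 0 hy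
  step_reg := fun i _ y hy => stepT_mem_regAwayFix M q (HI A) k i hy
  step_q := fun i _ => stepT_qK k i

omit [HasPrincipalDivisors (IsLocalRing.ResidueField A) (FRes A M)]
  [HasPrincipalDivisors (IsLocalRing.ResidueField (Wfix A)) (FRes A M)]
  [HasPrincipalDivisors Qb (FBar M)] in
/-- the hypothesis `hιj` of `mctx_modLX` for the residue embeddings `V^(2b-k)` (= helper6's
`MThick.VqR_pow_jK`; kept under this name for `Chain/Final`) -/
theorem hιj_posT (hA : A.LiesOverPrime q) (k : ℕ) (b : Fin (k + 1)) :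
    (VqR (M := M) hA ^ (2 * (b : ℕ) - k)) (Gink.jK A M) = Gink.jK A M ^ q ^ (2 * (b : ℕ) - k) :=
  MThick.VqR_pow_jK hA _

/-! ### the modular data of the tower -/

variable (T : TowerCore M q A hqM hA)

/-- the record `RowsReq` at the level `lev M q (k+1)` from the tower record -/
theorem rowsReq_lev (k : ℕ) :
    RowsReq hqM hA (lev M q (k + 1)) (k + 1) (T.V (k + 1)) (posT M q (HI A) (k + 1))
      (stepT M q (HI A) k) :=
  rowsReq_posT (T.rowsK k)

/-- **the modular datum of level `lev M q k = M q^k`** of the tower record `T` -/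
abbrev modT (k : ℕ) :
    MDatum (Wfix A) (fixF (lev M q k) (HI A)) (Fin (k + 1)) (fun _ => FRes A M) :=
  modLX (lev M q k) M q k A hqM hA (T.V k)

/-- **THE MODULAR `MCtx` AT THE LEVEL `lev M q (k+1)`** from the tower record. -/
theorem mctx_lev (haux : Fin.IsAuxLevel M q) (k : ℕ) {g gM : ℕ}
    (hF : IsCurveOfGenus Qb (FBar (lev M q (k + 1))) g)
    (hFk : IsCurveOfGenus kA (FRes A M) gM) :
    MCtx (modT T (k + 1)) g (fun _ => gM) :=
  mctx_modLX (T.towerReq (k + 1) (Nat.succ_le_succ (Nat.zero_le k))) (fun b => MThick.VqR_pow_jK hA _)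
    (lev_eq M q (k + 1)) haux (Nat.succ_le_succ (Nat.zero_le k)) hF hFk (rowsReq_lev T k)

/-- **the field `low_glue` of `Chain.ChainCtxK` at the level `lev M q (k+1)`** -/
theorem low_glue_lev (k : ℕ) (f : fixF (lev M q (k + 1)) (HI A))
    (hf : f ∈ regAwayFix (lev M q (k + 1)) (HI A)) (hO : f ∈ (modT T (k + 1)).O)
    (c : Fin (modT T (k + 1)).s) :
    ∃ γ : kW, ∀ i, HasValueAt ((modT T (k + 1)).x i c) ((modT T (k + 1)).redF i f) γ :=
  low_glue_modLX (T.towerReq (k + 1) (Nat.succ_le_succ (Nat.zero_le k))) (fun b => MThick.VqR_pow_jK hA _)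
    (lev_eq M q (k + 1)) (Nat.succ_pos k) (rowsReq_lev T k) f hf hO c

/-- the functions of `𝓛 0 0` are constants -/
theorem const00_lev (k : ℕ) {g : ℕ} (hF : IsCurveOfGenus Qb (FBar (lev M q k)) g)
    (f : fixF (lev M q k) (HI A)) (hf : f ∈ (modT T k).𝓛 0 0) :
    ∃ c : Kfix A, f = algebraMap (Kfix A) (fixF (lev M q k) (HI A)) c :=
  (ModK.modLK_hasChartsM (k := k) (hqM := hqM) (hA := hA) (V := T.V k)
    (x := fun i c => SS.xK M q A hqM hA k (i : ℕ) c)).const00
    (ModK.modLK_chartHyp (k := k) (hqM := hqM) (hA := hA) hF) f hf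

/-- **the Kummer system of the modular datum of level `lev M q k`** -/
def kummerSystem_lev (k : ℕ) {g : ℕ} (hF : IsCurveOfGenus Qb (FBar (lev M q k)) g) {n : ℕ}
    (hn : n ≠ 0) : KummerSystemK (modT T k) g n :=
  modL_kummerSystem (lev M q k) M q A (T.V k) 0 (fun i => eK q k i) (fun i j => wK q k i j)
    (nS M q A hqM hA) (fun i c => SS.xK M q A hqM hA k (i : ℕ) c) (c0WK M q k A hqM hA) hF hn

theorem kummerSystem_lev_isKum (k : ℕ) {g : ℕ} (hF : IsCurveOfGenus Qb (FBar (lev M q k)) g)
    {n : ℕ} (hn : n ≠ 0) (z : fixF (lev M q k) (HI A)) :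
    (kummerSystem_lev T k hF hn).IsKum z ↔ Fermat.Agent.S36lib.Fin.IsKumFn (HI A) n z := Iff.rfl

/-- the hypothesis `hKum` of `Chain.funChain_of_chainCtxK` -/
theorem hKum_lev (k : ℕ) {g : ℕ} (hF : IsCurveOfGenus Qb (FBar (lev M q k)) g)
    {n : ℕ} (hn : n ≠ 0) (u : fixF (lev M q k) (HI A)) (hu : u ≠ 0)
    (hE : ∃ E : Divisor Qb (FB (lev M q k)), ∀ v : AlgebraicCurve.Place Qb (FB (lev M q k)),
      (n : ℤ) * E v = v.ord (u : FB (lev M q k))) :
    (kummerSystem_lev T k hF hn).IsKum u :=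
  ⟨hu, hE⟩

end Fermat.Agent.S45lib.Inst
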